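import Mathlib

/-!
# S14, node AB: `abstract_eigen`

A finite abelian group `A` with an action of `(ZMod p)ˣ`: if all "square-eigen" characters
`A → ZMod p` are trivial then every "square-eigen" element killed by `p` is trivial.
-/

set_option autoImplicit false

namespace Fermat.Agent.S14

namespace AbstractEigen

variable {A : Type*} [CommGroup A]

/-- exponents in `Multiplicative (ZMod p)` only matter mod `p`. -/
lemma pow_eq_pow_of_cast_eq (p : ℕ) (z : Multiplicative (ZMod p)) {k l : ℕ}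
    (h : (k : ZMod p) = (l : ZMod p)) : z ^ k = z ^ l := by
  apply Multiplicative.toAdd.injective
  simp only [toAdd_pow, nsmul_eq_mul, h]

/-- exponents of an element killed by `p` only matter mod `p`. -/
lemma pow_eq_pow_of_cast_eq' (p : ℕ) {x : A} (hx : x ^ p = 1) {k l : ℕ}
    (h : (k : ZMod p) = (l : ZMod p)) : x ^ k = x ^ l := by
  have hmod : k ≡ l [MOD p] := (ZMod.natCast_eq_natCast_iff k l p).mp h
  rw [← Nat.div_add_mod k p, ← Nat.div_add_mod l p, pow_add, pow_add, pow_mul, pow_mul, hx,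
    one_pow, one_pow, hmod]

lemma exists_linearMap_ne_zero (p : ℕ) [Fact p.Prime] {V : Type*} [AddCommGroup V]
    [Module (ZMod p) V] {v : V} (hv : v ≠ 0) : ∃ f : V →ₗ[ZMod p] ZMod p, f v ≠ 0 :=
  Module.Projective.exists_dual_ne_zero (ZMod p) hv

/-- additive characters separate points of a group killed by `p`. -/
lemma exists_addHom_ne_zero (p : ℕ) [Fact p.Prime] {V : Type*} [AddCommGroup V]
    (hV : ∀ v : V, p • v = 0) {v : V} (hv : v ≠ 0) : ∃ f : V →+ ZMod p, f v ≠ 0 := by
  obtain ⟨f, hf⟩ := @exists_linearMap_ne_zero p _ V _ (AddCommGroup.zmodModule hV) v hv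
  exact ⟨@LinearMap.toAddMonoidHom _ _ _ _ _ _ _ _ (AddCommGroup.zmodModule hV) _ _ f, hf⟩

/-- characters with values in `ZMod p` detect `A / A ^ p`. -/
lemma exists_pow_eq_of_forall_char (p : ℕ) [Fact p.Prime] (a : A)
    (h : ∀ χ : A →* Multiplicative (ZMod p), χ a = 1) : ∃ y : A, y ^ p = a := by
  by_contra hcon
  have haH : a ∉ (powMonoidHom p : A →* A).range := fun ha => hcon (by
    obtain ⟨y, hy⟩ := ha
    exact ⟨y, by simpa using hy⟩)
  have hQ : ∀ v : Additive (A ⧸ (powMonoidHom p : A →* A).range), p • v = 0 := by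
    intro v
    induction v using Additive.rec with
    | ofMul q =>
      induction q using QuotientGroup.induction_on with
      | H y =>
        rw [← ofMul_pow, ← QuotientGroup.mk_pow]
        have : ((y ^ p : A) : A ⧸ (powMonoidHom p : A →* A).range) = 1 :=
          (QuotientGroup.eq_one_iff _).mpr ⟨y, by simp⟩
        rw [this]; rfl
  have hv : (Additive.ofMul ((a : A) : A ⧸ (powMonoidHom p : A →* A).range)) ≠ 0 := by
    intro h0
    apply haH
    rw [← QuotientGroup.eq_one_iff]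
    exact Additive.ofMul.injective h0
  obtain ⟨f, hf⟩ := exists_addHom_ne_zero p hQ hv
  have := h ((AddMonoidHom.toMultiplicativeRight f).comp
    (QuotientGroup.mk' (powMonoidHom p : A →* A).range))
  apply hf
  exact Multiplicative.ofAdd.injective this

variable (p : ℕ) [Fact p.Prime] (act : (ZMod p)ˣ →* MulAut A)

/-- the exponent `n_b = (b⁻¹)^2`. -/
noncomputable def expn (b : (ZMod p)ˣ) : ℕ := (((b⁻¹ : (ZMod p)ˣ) : ZMod p) ^ 2).val

lemma cast_expn (b : (ZMod p)ˣ) : ((expn p b : ℕ) : ZMod p) = ((b⁻¹ : (ZMod p)ˣ) : ZMod p) ^ 2 := by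
  unfold expn
  exact ZMod.natCast_zmod_val _

/-- the "projector" `e y = ∏_b (b • y) ^ n_b`. -/
noncomputable def proj : A →* A where
  toFun y := ∏ b : (ZMod p)ˣ, (act b y) ^ expn p b
  map_one' := by simp
  map_mul' y z := by simp [mul_pow, Finset.prod_mul_distrib]

lemma proj_apply (y : A) : proj p act y = ∏ b : (ZMod p)ˣ, (act b y) ^ expn p b := rfl

/-- `χ ∘ e` is a square-eigen character for every `χ`. -/
lemma comp_proj_eigen (χ : A →* Multiplicative (ZMod p)) (c : (ZMod p)ˣ) (y : A) :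
    (χ.comp (proj p act)) (act c y) = (χ.comp (proj p act)) y ^ ((c : ZMod p) ^ 2).val := by
  simp only [MonoidHom.comp_apply, proj_apply, map_prod, map_pow]
  rw [← Finset.prod_pow]
  refine Fintype.prod_equiv (Equiv.mulRight c) _ _ fun b => ?_
  have h1 : act (Equiv.mulRight c b) y = act b (act c y) := by
    simp [map_mul]
  rw [h1, ← pow_mul]
  apply pow_eq_pow_of_cast_eq
  rw [Nat.cast_mul, cast_expn, cast_expn, ZMod.natCast_zmod_val]
  simp only [Equiv.coe_mulRight, mul_inv, Units.val_mul]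
  have hc : ((c⁻¹ : (ZMod p)ˣ) : ZMod p) * (c : ZMod p) = 1 := by
    rw [← Units.val_mul]; simp
  calc ((b⁻¹ : (ZMod p)ˣ) : ZMod p) ^ 2
      = ((b⁻¹ : (ZMod p)ˣ) : ZMod p) ^ 2 * (((c⁻¹ : (ZMod p)ˣ) : ZMod p) * (c : ZMod p)) ^ 2 := by
        rw [hc]; ring
    _ = _ := by ring

/-- on a square-eigen element killed by `p` the projector is inversion. -/
lemma proj_eigen {x : A} (hx : x ^ p = 1)
    (hxe : ∀ b : (ZMod p)ˣ, act b x = x ^ ((b : ZMod p) ^ 2).val) : proj p act x = x⁻¹ := by
  rw [proj_apply]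
  have h1 : ∀ b : (ZMod p)ˣ, (act b x) ^ expn p b = x := by
    intro b
    rw [hxe b, ← pow_mul]
    conv_rhs => rw [← pow_one x]
    apply pow_eq_pow_of_cast_eq' p hx
    rw [Nat.cast_mul, cast_expn, ZMod.natCast_zmod_val, Nat.cast_one, ← mul_pow, ← Units.val_mul]
    simp
  rw [Finset.prod_congr rfl fun b _ => h1 b, Finset.prod_const, Finset.card_univ,
    ZMod.card_units p]
  have hp : 1 ≤ p := (Fact.out : p.Prime).one_lt.le
  rw [eq_inv_iff_mul_eq_one, ← pow_succ, Nat.sub_add_cancel hp, hx]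

end AbstractEigen

open AbstractEigen in
theorem abstract_eigen {A : Type*} [CommGroup A] [Finite A] (p : ℕ) [Fact p.Prime]
    (act : (ZMod p)ˣ →* MulAut A)
    (h : ∀ χ : A →* Multiplicative (ZMod p),
      (∀ (b : (ZMod p)ˣ) (x : A), χ (act b x) = χ x ^ ((b : ZMod p) ^ 2).val) → χ = 1)
    (x : A) (hx : x ^ p = 1) (hxe : ∀ b : (ZMod p)ˣ, act b x = x ^ ((b : ZMod p) ^ 2).val) :
    x = 1 := by
  have hp : p.Prime := Fact.out
  -- the projector lands in `p`-th powers
  have hproj : ∀ y : A, ∃ z : A, z ^ p = proj p act y := by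
    intro y
    apply exists_pow_eq_of_forall_char
    intro χ
    have := h (χ.comp (proj p act)) (comp_proj_eigen p act χ)
    exact DFunLike.congr_fun this y
  -- `x` is a `p ^ k`-th power for all `k`
  have hpow : ∀ k : ℕ, ∃ y : A, y ^ (p ^ k) = x := by
    intro k
    induction k with
    | zero => exact ⟨x, by simp⟩
    | succ k ih =>
      obtain ⟨y, hy⟩ := ih
      obtain ⟨z, hz⟩ := hproj y
      refine ⟨z⁻¹, ?_⟩
      have h1 : proj p act x = x⁻¹ := proj_eigen p act hx hxe
      rw [← hy, map_pow, ← hz, ← pow_mul, hy] at h1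
      rw [inv_pow, pow_succ', h1, inv_inv]
  obtain ⟨k, m, hm, hcard⟩ := Nat.exists_eq_pow_mul_and_not_dvd (Nat.card_pos (α := A)).ne' p
    hp.ne_one
  obtain ⟨y, hy⟩ := hpow k
  have hxm : x ^ m = 1 := by
    rw [← hy, ← pow_mul, ← hcard]
    exact pow_card_eq_one'
  have hcop : Nat.Coprime p m := (Nat.Prime.coprime_iff_not_dvd hp).mpr hm
  have := pow_gcd_eq_one.mpr ⟨hx, hxm⟩
  rwa [hcop.gcd_eq_one, pow_one] at this

end Fermat.Agent.S14
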