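import Fermat.Agent.S14.Defs

/-!
# S14 : bridge (normalisation `x ~> α = x * y ^ p ∈ 𝓞 K`)
-/

set_option autoImplicit false

namespace Fermat.Agent.S14

open NumberField Ideal IsDedekindDomain
open scoped nonZeroDivisors Pointwise

namespace Bridge

/-- A fractional ideal of an integrally closed domain whose `n`-th power is integral is integral. -/
theorem le_one_of_pow_le_one {R F : Type*} [CommRing R] [IsDomain R] [Field F] [Algebra R F]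
    [IsFractionRing R F] [IsIntegrallyClosed R] (J : FractionalIdeal R⁰ F) (n : ℕ) (hn : n ≠ 0)
    (h : J ^ n ≤ 1) : J ≤ 1 := by
  intro j hj
  have hjn : ∀ m : ℕ, j ^ m ∈ J ^ m := by
    intro m
    induction m with
    | zero => simp
    | succ m ih => rw [pow_succ, pow_succ]; exact FractionalIdeal.mul_mem_mul ih hj
  have h1 : j ^ n ∈ (1 : FractionalIdeal R⁰ F) := h (hjn n)
  obtain ⟨r, hr⟩ := (FractionalIdeal.mem_one_iff R⁰).1 h1
  have hint : IsIntegral R (j ^ n) := by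
    rw [← hr]; exact isIntegral_algebraMap
  have hj' : IsIntegral R j := IsIntegral.of_pow (Nat.pos_of_ne_zero hn) hint
  obtain ⟨s, hs⟩ := IsIntegrallyClosed.isIntegral_iff.1 hj'
  exact (FractionalIdeal.mem_one_iff R⁰).2 ⟨s, hs⟩

end Bridge

section Cyclo
variable {p : ℕ} [Fact p.Prime] {K : Type*} [Field K] [NumberField K]
  [IsCyclotomicExtension {p} ℚ K]

theorem bridge {ζ : K} (hζ : IsPrimitiveRoot ζ p) (x : K) (hx : x ≠ 0)
    (hI : ∃ I : FractionalIdeal (𝓞 K)⁰ K, FractionalIdeal.spanSingleton (𝓞 K)⁰ x = I ^ p)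
    (hloc : ∃ y : K, y ≠ 0 ∧ ∃ c : 𝓞 K, x * y ^ p = 1 + (1 - ζ) ^ 3 * (c : K))
    (heig : ∀ (g : K ≃ₐ[ℚ] K) (a : ℕ), g ζ = ζ ^ a → ∃ y : K, g x = x ^ (a ^ 2) * y ^ p) :
    ∃ (α : 𝓞 K) (y : K), y ≠ 0 ∧ (α : K) = x * y ^ p ∧ α ≠ 0 ∧
      α - 1 ∈ (span {hζ.toInteger - 1} : Ideal (𝓞 K)) ^ 3 ∧
      (∃ 𝔞 : Ideal (𝓞 K), span {α} = 𝔞 ^ p) ∧
      (∀ (σ : K ≃ₐ[ℚ] K) (a : ℕ), σ ζ = ζ ^ a →
        ∃ γ : K, σ (α : K) = (α : K) ^ (a ^ 2) * γ ^ p) := by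
  have hp0 : p ≠ 0 := (Fact.out : p.Prime).ne_zero
  obtain ⟨I, hI⟩ := hI
  obtain ⟨y, hy, c, hc⟩ := hloc
  set α : 𝓞 K := 1 + (1 - hζ.toInteger) ^ 3 * c with hα
  have hαK : (α : K) = x * y ^ p := by
    rw [hc, hα]
    simp
  have hαK0 : (α : K) ≠ 0 := by
    rw [hαK]; exact mul_ne_zero hx (pow_ne_zero _ hy)
  have hα0 : α ≠ 0 := by
    intro h; apply hαK0; rw [h]; simp
  refine ⟨α, y, hy, hαK, hα0, ?_, ?_, ?_⟩
  · rw [Ideal.span_singleton_pow, Ideal.mem_span_singleton]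
    refine ⟨-c, ?_⟩
    rw [hα]; ring
  · set J : FractionalIdeal (𝓞 K)⁰ K := I * FractionalIdeal.spanSingleton (𝓞 K)⁰ y with hJ
    have hJp : J ^ p = ((span {α} : Ideal (𝓞 K)) : FractionalIdeal (𝓞 K)⁰ K) := by
      rw [hJ, mul_pow, ← hI, FractionalIdeal.spanSingleton_pow,
        FractionalIdeal.spanSingleton_mul_spanSingleton, ← hαK,
        FractionalIdeal.coeIdeal_span_singleton]
    have hle : J ^ p ≤ 1 := by
      rw [hJp]; exact FractionalIdeal.coeIdeal_le_one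
    have hJ1 : J ≤ 1 := Bridge.le_one_of_pow_le_one J p hp0 hle
    obtain ⟨𝔞, h𝔞⟩ := FractionalIdeal.le_one_iff_exists_coeIdeal.1 hJ1
    refine ⟨𝔞, ?_⟩
    apply FractionalIdeal.coeIdeal_injective (K := K)
    show ((span {α} : Ideal (𝓞 K)) : FractionalIdeal (𝓞 K)⁰ K) = ((𝔞 ^ p : Ideal (𝓞 K)) : FractionalIdeal (𝓞 K)⁰ K)
    rw [FractionalIdeal.coeIdeal_pow, h𝔞, hJp]
  · intro σ a hσ
    obtain ⟨y', hy'⟩ := heig σ a hσ
    refine ⟨y' * σ y / y ^ (a ^ 2), ?_⟩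
    rw [hαK, map_mul, map_pow, hy']
    have h2 : y ^ (a ^ 2) ≠ 0 := pow_ne_zero _ hy
    have h3 : (y ^ p) ^ (a ^ 2) = (y ^ (a ^ 2)) ^ p := by
      rw [← pow_mul, ← pow_mul, mul_comm]
    rw [mul_pow, div_pow, mul_pow, h3]
    have h4 : (y ^ (a ^ 2)) ^ p ≠ 0 := pow_ne_zero _ h2
    field_simp

end Cyclo

end Fermat.Agent.S14
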