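import Mathlib
import Fermat.Prelude.Def_ExtCitation_AdmissibleExtension_v2

/-!
# S14: interface between the Galois side (module G) and the arithmetic core

`CoreStatement p` is the purely arithmetic statement about `K = ℚ(ζ_p)`.
Module G (files `Fermat/Agent/S14/G/*.lean`) proves
`CoreStatement p → ExtCitation.ExtVanishingCts p`.
-/

set_option autoImplicit false

namespace Fermat.Agent.S14

open NumberField

/-- Arithmetic core of S14.  `K = ℚ(ζ_p)`, `x ∈ Kˣ` such that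
(a) the principal fractional ideal `(x)` is a `p`-th power,
(b) for every `n`, `x` times a `p`-th power is an algebraic integer `≡ 1 mod (1-ζ)^n`,
(c) `σ_a x = x^(a^2) * y^p` for every `σ_a ∈ Gal(K/ℚ)`, `σ_a ζ = ζ^a`.
Then `x` is a `p`-th power in `K`. -/
def CoreStatement (p : ℕ) : Prop :=
  ∀ (K : Type) [Field K] [NumberField K] [IsCyclotomicExtension {p} ℚ K] (ζ : K),
    IsPrimitiveRoot ζ p → ∀ x : K, x ≠ 0 →
    (∃ I : FractionalIdeal (nonZeroDivisors (𝓞 K)) K,
      FractionalIdeal.spanSingleton (nonZeroDivisors (𝓞 K)) x = I ^ p) →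
    (∀ n : ℕ, ∃ y : K, y ≠ 0 ∧ ∃ c : 𝓞 K, x * y ^ p = 1 + (1 - ζ) ^ n * (c : K)) →
    (∀ (g : K ≃ₐ[ℚ] K) (a : ℕ), g ζ = ζ ^ a → ∃ y : K, g x = x ^ (a ^ 2) * y ^ p) →
    ∃ y : K, x = y ^ p

end Fermat.Agent.S14
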