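import Fermat.Agent.S14.Defs

/-!
# S14, node CHI: an `ω²`-eigencharacter of the class group of `ℚ(ζ_p)` is trivial

`eigenChar_trivial_of` is the assembly of the analytic core, the splitting lemma, Thaine's
relation and the two facts about the cyclotomic unit `eta`; these five inputs are explicit
hypotheses (with exactly the blueprint statements, specialised to `K`).
-/

set_option autoImplicit false

universe u

namespace Fermat.Agent.S14

open NumberField Ideal Polynomial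
open scoped nonZeroDivisors

namespace EigenChar

variable {p : ℕ} [Fact p.Prime] {K : Type u} [Field K] [NumberField K]

/-- an algebraic integer that is a `p`-th power in `K` is a `p`-th power in `𝓞 K` -/
lemma exists_int_pow_of_exists_pow (η : 𝓞 K) (h : ∃ c : K, (η : K) = c ^ p) :
    ∃ x : 𝓞 K, η = x ^ p := by
  obtain ⟨c, hc⟩ := h
  have hcint : IsIntegral ℤ c := by
    apply IsIntegral.of_pow (n := p) (Fact.out : p.Prime).pos
    rw [← hc]; exact RingOfIntegers.isIntegral_coe η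
  refine ⟨⟨c, hcint⟩, RingOfIntegers.ext ?_⟩
  rw [hc]; rfl

/-- the only prime of `ℚ(ζ_p)` containing `p` is principal -/
lemma isPrincipal_of_mem [IsCyclotomicExtension {p} ℚ K] {ζ : K} (hζ : IsPrimitiveRoot ζ p)
    (q : Ideal (𝓞 K)) [hq : q.IsPrime] (hp : (p : 𝓞 K) ∈ q) : q.IsPrincipal := by
  have hass := IsCyclotomicExtension.Rat.associated_zeta_sub_one_pow_prime p hζ
  have h1 : (hζ.toInteger - 1) ^ (p - 1) ∈ q := by
    obtain ⟨u, hu⟩ := hass.symm
    rw [← hu]; exact q.mul_mem_right _ hp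
  have h2 : hζ.toInteger - 1 ∈ q := hq.mem_of_pow_mem _ h1
  have hle : span {hζ.toInteger - 1} ≤ q := (span_singleton_le_iff_mem q).mpr h2
  have hmax : (span {hζ.toInteger - 1} : Ideal (𝓞 K)).IsMaximal :=
    (IsCyclotomicExtension.Rat.isPrime_span_zeta_sub_one' p hζ).isMaximal
      (by
        rw [Ne, span_singleton_eq_bot]
        exact hζ.zeta_sub_one_prime'.ne_zero)
  rw [← hmax.eq_of_le hq.ne_top hle]
  exact ⟨⟨_, rfl⟩⟩

end EigenChar

open EigenChar in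
/-- Node CHI, with the five not yet landed inputs as hypotheses. -/
theorem eigenChar_trivial_of {p : ℕ} [Fact p.Prime] {K : Type u} [Field K] [NumberField K]
    [IsCyclotomicExtension {p} ℚ K] (hp5 : 5 ≤ p) {ζ : K} (hζ : IsPrimitiveRoot ζ p)
    (h_core : ∀ (N : Type u) [Field N] [NumberField N] [Algebra K N]
      (H : Subgroup (ClassGroup (𝓞 K))) (m : ℕ) (_ : 2 < m)
      (_ : ∀ q : (Ideal (𝓞 K))⁰, (q : Ideal (𝓞 K)).IsPrime →
        (absNorm (q : Ideal (𝓞 K))).Prime → ClassGroup.mk0 q ∉ H →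
        ∃ S : Finset (Ideal (𝓞 N)), m ≤ S.card ∧ ∀ Q ∈ S, Q.IsPrime ∧
          Q.comap (algebraMap (𝓞 K) (𝓞 N)) = (q : Ideal (𝓞 K)) ∧
          absNorm Q = absNorm (q : Ideal (𝓞 K))), H = ⊤)
    (h_split : ∀ (N : Type u) [Field N] [NumberField N] [Algebra K N]
      (_ : Module.finrank K N = p) (ζ' : 𝓞 K) (_ : IsPrimitiveRoot ζ' p)
      (η : 𝓞 K) (_ : ¬ ∃ c : K, (η : K) = c ^ p)
      (b : 𝓞 N) (_ : b ^ p = algebraMap (𝓞 K) (𝓞 N) η)
      (𝔩 : Ideal (𝓞 K)) [𝔩.IsPrime] (_ : 𝔩 ≠ ⊥) (_ : (p : 𝓞 K) ∉ 𝔩) (_ : η ∉ 𝔩)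
      (x : 𝓞 K) (_ : x ^ p - η ∈ 𝔩),
      ∃ S : Finset (Ideal (𝓞 N)), p ≤ S.card ∧ ∀ Q ∈ S, Q.IsPrime ∧
        Q.comap (algebraMap (𝓞 K) (𝓞 N)) = 𝔩 ∧ absNorm Q = absNorm 𝔩)
    (h_thaine : ∀ (χ : ClassGroup (𝓞 K) →* Multiplicative (ZMod p)) (_ : IsEigenChar p ζ χ)
      (𝔩 : Ideal (𝓞 K)) [𝔩.IsPrime] (ℓ : ℕ) (_ : ℓ.Prime) (_ : ℓ ≠ p) (_ : absNorm 𝔩 = ℓ)
      (_ : χ (cls 𝔩) ≠ 1), ∃ x : 𝓞 K, x ^ p - eta p hζ.toInteger ∈ 𝔩)
    (h_unit : IsUnit (eta p hζ.toInteger))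
    (h_local : ∀ (k : ℕ) (x : 𝓞 K),
      eta p hζ.toInteger ^ k - x ^ p ∈ (span {hζ.toInteger - 1} : Ideal (𝓞 K)) ^ 3 → p ∣ k)
    (χ : ClassGroup (𝓞 K) →* Multiplicative (ZMod p)) (hχ : IsEigenChar p ζ χ) : χ = 1 := by
  have hpp : p.Prime := Fact.out
  generalize hη : eta p hζ.toInteger = η at *
  -- `η` is not a `p`-th power
  have hirr : ¬ ∃ c : K, (η : K) = c ^ p := by
    intro h
    obtain ⟨x, hx⟩ := exists_int_pow_of_exists_pow η h
    have h1 : p ∣ 1 := h_local 1 x (by rw [pow_one, hx, sub_self]; exact Ideal.zero_mem _)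
    exact hpp.one_lt.ne' (Nat.dvd_one.mp h1)
  -- the Kummer extension
  have hpoly : Irreducible (X ^ p - C (η : K)) :=
    X_pow_sub_C_irreducible_of_prime hpp (fun b hb => hirr ⟨b, hb.symm⟩)
  have : Fact (Irreducible (X ^ p - C (η : K))) := ⟨hpoly⟩
  have hne : (X ^ p - C (η : K)) ≠ 0 := hpoly.ne_zero
  have : Module.Finite K (AdjoinRoot (X ^ p - C (η : K))) :=
    (AdjoinRoot.powerBasis hne).finite
  have : NumberField (AdjoinRoot (X ^ p - C (η : K))) :=
    NumberField.of_module_finite K _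
  have hdeg : Module.finrank K (AdjoinRoot (X ^ p - C (η : K))) = p := by
    rw [(AdjoinRoot.powerBasis hne).finrank, AdjoinRoot.powerBasis_dim,
      natDegree_X_pow_sub_C]
  have hroot : (AdjoinRoot.root (X ^ p - C (η : K))) ^ p
      = algebraMap K (AdjoinRoot (X ^ p - C (η : K))) (η : K) := by
    have h := AdjoinRoot.eval₂_root (X ^ p - C (η : K))
    rw [eval₂_sub, eval₂_pow, eval₂_X, eval₂_C, sub_eq_zero] at h
    exact h
  have hbint : IsIntegral ℤ (AdjoinRoot.root (X ^ p - C (η : K))) := by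
    apply IsIntegral.of_pow (n := p) hpp.pos
    rw [hroot]
    exact (RingOfIntegers.isIntegral_coe η).algebraMap
  have hb : (⟨_, hbint⟩ : 𝓞 (AdjoinRoot (X ^ p - C (η : K)))) ^ p
      = algebraMap (𝓞 K) (𝓞 (AdjoinRoot (X ^ p - C (η : K)))) η := by
    apply RingOfIntegers.ext
    exact hroot
  have hker : χ.ker = ⊤ := by
    refine h_core (AdjoinRoot (X ^ p - C (η : K))) χ.ker p (by omega) ?_
    intro q hqprime hqN hqH
    have hq0 : (q : Ideal (𝓞 K)) ≠ ⊥ := mem_nonZeroDivisors_iff_ne_zero.mp q.2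
    have hcls : cls (q : Ideal (𝓞 K)) = ClassGroup.mk0 q := by
      unfold cls; rw [dif_pos hq0]
    have hne1 : χ (cls (q : Ideal (𝓞 K))) ≠ 1 := by
      rw [hcls]; exact fun h => hqH (MonoidHom.mem_ker.mpr h)
    have hmemN : ((absNorm (q : Ideal (𝓞 K)) : ℕ) : 𝓞 K) ∈ (q : Ideal (𝓞 K)) :=
      absNorm_mem _
    by_cases hℓp : absNorm (q : Ideal (𝓞 K)) = p
    · exfalso
      rw [hℓp] at hmemN
      have hprinc := isPrincipal_of_mem hζ (q : Ideal (𝓞 K)) hmemN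
      apply hqH
      rw [MonoidHom.mem_ker]
      have : ClassGroup.mk0 q = 1 := (ClassGroup.mk0_eq_one_iff q.2).mpr hprinc
      rw [this, map_one]
    · obtain ⟨x, hx⟩ := h_thaine χ hχ (q : Ideal (𝓞 K)) _ hqN hℓp rfl hne1
      have hpq : (p : 𝓞 K) ∉ (q : Ideal (𝓞 K)) := by
        intro hmem
        have hcop : Nat.Coprime p (absNorm (q : Ideal (𝓞 K))) :=
          (Nat.coprime_primes hpp hqN).mpr (Ne.symm hℓp)
        have hcop' : IsCoprime (p : ℤ) (absNorm (q : Ideal (𝓞 K)) : ℤ) :=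
          Nat.isCoprime_iff_coprime.mpr hcop
        obtain ⟨a, b, hab⟩ := hcop'
        apply hqprime.ne_top
        rw [eq_top_iff_one]
        have h1 : (1 : 𝓞 K) = (a : 𝓞 K) * (p : 𝓞 K)
            + (b : 𝓞 K) * ((absNorm (q : Ideal (𝓞 K)) : ℕ) : 𝓞 K) := by
          have := congrArg (fun z : ℤ => (z : 𝓞 K)) hab
          push_cast at this
          exact this.symm
        rw [h1]
        exact add_mem (Ideal.mul_mem_left _ _ hmem) (Ideal.mul_mem_left _ _ hmemN)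
      have hηq : η ∉ (q : Ideal (𝓞 K)) := fun hmem =>
        hqprime.ne_top (eq_top_of_isUnit_mem _ hmem h_unit)
      exact h_split _ hdeg hζ.toInteger hζ.toInteger_isPrimitiveRoot η hirr _ hb
        (q : Ideal (𝓞 K)) hq0 hpq hηq x hx
  exact (MonoidHom.ker_eq_top_iff).mp hker

end Fermat.Agent.S14
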