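import Fermat.Agent.S14.Defs
import Fermat.Prelude.Def_ClassGroup_GaloisAction

/-!
# S14, node CL : an `ω²`-eigenclass of order dividing `p` is trivial (owner helper117)
-/

set_option autoImplicit false

namespace Fermat.Agent.S14

open NumberField Ideal IsDedekindDomain
open scoped nonZeroDivisors Pointwise

namespace EigenClass

section General

variable {K : Type*} [Field K] [NumberField K]

/-- The ring automorphism of `𝓞 K` induced by a Galois automorphism. -/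
noncomputable def ringAut (σ : K ≃ₐ[ℚ] K) : 𝓞 K ≃+* 𝓞 K :=
  MulSemiringAction.toRingEquiv (K ≃ₐ[ℚ] K) (𝓞 K) σ

theorem cls_of_ne {I : Ideal (𝓞 K)} (h : I ≠ ⊥) :
    cls I = ClassGroup.mk0 ⟨I, mem_nonZeroDivisors_iff_ne_zero.mpr h⟩ := dif_pos h

theorem exists_cls (C : ClassGroup (𝓞 K)) : ∃ I : Ideal (𝓞 K), I ≠ ⊥ ∧ cls I = C := by
  obtain ⟨P, rfl⟩ := ClassGroup.mk0_surjective C
  have hP : (P : Ideal (𝓞 K)) ≠ ⊥ := mem_nonZeroDivisors_iff_ne_zero.mp P.2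
  exact ⟨P, hP, cls_of_ne hP⟩

theorem smul_eq_map (σ : K ≃ₐ[ℚ] K) (I : Ideal (𝓞 K)) :
    σ • I = I.map ((ringAut σ : 𝓞 K ≃+* 𝓞 K) : 𝓞 K →+* 𝓞 K) := rfl

theorem smul_ne_bot (σ : K ≃ₐ[ℚ] K) {I : Ideal (𝓞 K)} (h : I ≠ ⊥) : σ • I ≠ ⊥ := by
  rw [smul_eq_map]
  intro h0
  exact h ((Ideal.map_eq_bot_iff_of_injective (ringAut σ).injective).mp h0)

theorem mulEquiv_cls (σ : K ≃ₐ[ℚ] K) {I : Ideal (𝓞 K)} (h : I ≠ ⊥) :
    ClassGroup.mulEquiv (ringAut σ) (cls I) = cls (σ • I) := by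
  rw [cls_of_ne h, cls_of_ne (smul_ne_bot σ h), ClassGroup.mulEquiv_mk0]
  rfl

/-- The Galois action on the class group. -/
noncomputable def clAct : (K ≃ₐ[ℚ] K) →* MulAut (ClassGroup (𝓞 K)) where
  toFun σ := ClassGroup.mulEquiv (ringAut σ)
  map_one' := by
    ext C
    obtain ⟨I, hI, rfl⟩ := exists_cls C
    rw [mulEquiv_cls 1 hI, one_smul]
    rfl
  map_mul' σ τ := by
    ext C
    obtain ⟨I, hI, rfl⟩ := exists_cls C
    rw [mulEquiv_cls (σ * τ) hI, MulAut.mul_apply, mulEquiv_cls τ hI,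
      mulEquiv_cls σ (smul_ne_bot τ hI), mul_smul]

theorem clAct_cls (σ : K ≃ₐ[ℚ] K) {I : Ideal (𝓞 K)} (h : I ≠ ⊥) :
    clAct σ (cls I) = cls (σ • I) := mulEquiv_cls σ h

end General

theorem pow_sq_val {G : Type*} [Monoid G] {p : ℕ} [NeZero p] (y : G) (hy : y ^ p = 1)
    (b : ZMod p) (b' : ℕ) (h : b = (b' : ZMod p)) : y ^ (b ^ 2).val = y ^ (b' ^ 2) := by
  have h1 : (b ^ 2).val = (b' ^ 2) % p := by
    rw [h, ← Nat.cast_pow, ZMod.val_natCast]
  rw [h1, ← pow_eq_pow_mod _ hy]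

theorem mult_pow_eq_one {p : ℕ} (y : Multiplicative (ZMod p)) : y ^ p = 1 := by
  have : Multiplicative.toAdd (y ^ p) = 0 := by
    rw [toAdd_pow]
    simp
  exact Multiplicative.toAdd.injective this

end EigenClass

open EigenClass

section Cyclo

variable {p : ℕ} [Fact p.Prime] {K : Type*} [Field K] [NumberField K]
  [IsCyclotomicExtension {p} ℚ K]

namespace EigenClass

/-- The action of `(ZMod p)ˣ` on the class group of the `p`-th cyclotomic field. -/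
noncomputable def act (p : ℕ) [Fact p.Prime] (K : Type*) [Field K] [NumberField K]
    [IsCyclotomicExtension {p} ℚ K] : (ZMod p)ˣ →* MulAut (ClassGroup (𝓞 K)) :=
  clAct.comp (IsCyclotomicExtension.Rat.galEquivZMod p K).symm.toMonoidHom

theorem act_galEquiv (σ : K ≃ₐ[ℚ] K) :
    act p K (IsCyclotomicExtension.Rat.galEquivZMod p K σ) = clAct σ := by
  show clAct ((IsCyclotomicExtension.Rat.galEquivZMod p K).symm
    (IsCyclotomicExtension.Rat.galEquivZMod p K σ)) = clAct σ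
  rw [MulEquiv.symm_apply_apply]

theorem galEquiv_eq_natCast {ζ : K} (hζ : IsPrimitiveRoot ζ p) (σ : K ≃ₐ[ℚ] K) (b : ℕ)
    (h : σ ζ = ζ ^ b) :
    ((IsCyclotomicExtension.Rat.galEquivZMod p K σ : (ZMod p)ˣ) : ZMod p) = (b : ZMod p) := by
  have h1 := IsCyclotomicExtension.Rat.galEquivZMod_apply_of_pow_eq p K σ hζ.pow_eq_one
  rw [h] at h1
  have h2 : b ≡ ((IsCyclotomicExtension.Rat.galEquivZMod p K σ : (ZMod p)ˣ) : ZMod p).val
      [MOD p] := by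
    have := (hζ.isOfFinOrder (NeZero.ne _)).pow_inj_mod.mp h1
    rwa [← hζ.eq_orderOf] at this
  have h3 := (ZMod.natCast_eq_natCast_iff _ _ _).mpr h2
  rw [h3, ZMod.natCast_zmod_val]

end EigenClass

/-- Node CL, with the nodes AB (specialised to the class group) and CHI as hypotheses. -/
theorem eigen_class_trivial_of {ζ : K} (hζ : IsPrimitiveRoot ζ p)
    (hAB : ∀ act : (ZMod p)ˣ →* MulAut (ClassGroup (𝓞 K)),
      (∀ χ : ClassGroup (𝓞 K) →* Multiplicative (ZMod p),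
        (∀ (b : (ZMod p)ˣ) (x : ClassGroup (𝓞 K)),
          χ (act b x) = χ x ^ ((b : ZMod p) ^ 2).val) → χ = 1) →
      ∀ x : ClassGroup (𝓞 K), x ^ p = 1 →
        (∀ b : (ZMod p)ˣ, act b x = x ^ ((b : ZMod p) ^ 2).val) → x = 1)
    (hCHI : ∀ χ : ClassGroup (𝓞 K) →* Multiplicative (ZMod p), IsEigenChar p ζ χ → χ = 1)
    (𝔞 : Ideal (𝓞 K)) (h0 : 𝔞 ≠ ⊥) (hpow : cls 𝔞 ^ p = 1)
    (heig : ∀ (σ : K ≃ₐ[ℚ] K) (b : ℕ), σ ζ = ζ ^ b → cls (σ • 𝔞) = cls 𝔞 ^ (b ^ 2)) :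
    cls 𝔞 = 1 := by
  refine hAB (act p K) ?_ (cls 𝔞) hpow ?_
  · intro χ hχ
    refine hCHI χ ?_
    intro σ b hσ I hI
    have h1 := hχ (IsCyclotomicExtension.Rat.galEquivZMod p K σ) (cls I)
    rw [act_galEquiv, clAct_cls σ hI] at h1
    rw [h1]
    exact pow_sq_val _ (mult_pow_eq_one _) _ b (galEquiv_eq_natCast hζ σ b hσ)
  · intro b
    obtain ⟨σ, rfl⟩ := (IsCyclotomicExtension.Rat.galEquivZMod p K).surjective b
    rw [act_galEquiv, clAct_cls σ h0]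
    have h1 := IsCyclotomicExtension.Rat.galEquivZMod_apply_of_pow_eq p K σ hζ.pow_eq_one
    rw [heig σ _ h1]
    exact (pow_sq_val _ hpow _ _ (ZMod.natCast_zmod_val _).symm).symm

end Cyclo

end Fermat.Agent.S14
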