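import Fermat.Agent.S14.Defs

/-!
# S14-NF5: `nf_core_five` from `eigen_class_trivial` and `unit_pth_power` (owner: helper270)
-/

set_option autoImplicit false
set_option linter.unusedSectionVars false

namespace Fermat.Agent.S14

open NumberField Ideal IsDedekindDomain
open scoped nonZeroDivisors Pointwise

namespace NFFive

variable {K : Type*} [Field K] [NumberField K]

lemma ideal_pow_inj {I J : Ideal (𝓞 K)} {n : ℕ} (hn : n ≠ 0) (h : I ^ n = J ^ n) : I = J := by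
  have h1 : I ∣ J := (UniqueFactorizationMonoid.pow_dvd_pow_iff_dvd hn).mp (h ▸ dvd_rfl)
  have h2 : J ∣ I := (UniqueFactorizationMonoid.pow_dvd_pow_iff_dvd hn).mp (h ▸ dvd_rfl)
  exact le_antisymm (Ideal.dvd_iff_le.mp h2) (Ideal.dvd_iff_le.mp h1)

lemma cls_of_ne {I : Ideal (𝓞 K)} (h : I ≠ ⊥) :
    cls I = ClassGroup.mk0 ⟨I, mem_nonZeroDivisors_iff_ne_zero.mpr h⟩ := dif_pos h

lemma cls_mul {I J : Ideal (𝓞 K)} (hI : I ≠ ⊥) (hJ : J ≠ ⊥) : cls (I * J) = cls I * cls J := by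
  rw [cls_of_ne hI, cls_of_ne hJ, cls_of_ne (mul_ne_zero hI hJ), ← map_mul]
  rfl

lemma cls_one : cls (1 : Ideal (𝓞 K)) = 1 := by
  rw [cls_of_ne one_ne_zero, ← map_one (ClassGroup.mk0 (R := 𝓞 K))]
  rfl

lemma cls_pow {I : Ideal (𝓞 K)} (hI : I ≠ ⊥) (n : ℕ) : cls (I ^ n) = cls I ^ n := by
  induction n with
  | zero => simpa using cls_one
  | succ n ih => rw [pow_succ, pow_succ, cls_mul (pow_ne_zero n hI) hI, ih]

lemma cls_eq_one_iff {I : Ideal (𝓞 K)} (hI : I ≠ ⊥) : cls I = 1 ↔ I.IsPrincipal := by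
  rw [cls_of_ne hI, ClassGroup.mk0_eq_one_iff]

lemma cls_span_singleton {x : 𝓞 K} (hx : x ≠ 0) : cls (span {x} : Ideal (𝓞 K)) = 1 := by
  rw [cls_eq_one_iff (by simpa using hx)]
  exact ⟨x, rfl⟩

lemma coe_smul (σ : K ≃ₐ[ℚ] K) (x : 𝓞 K) : ((σ • x : 𝓞 K) : K) = σ x := rfl

lemma smul_span_singleton (σ : K ≃ₐ[ℚ] K) (x : 𝓞 K) :
    σ • (span {x} : Ideal (𝓞 K)) = span {σ • x} := by
  rw [Ideal.pointwise_smul_def, Ideal.map_span, Set.image_singleton]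
  rfl

lemma smul_ne_bot (σ : K ≃ₐ[ℚ] K) {I : Ideal (𝓞 K)} (hI : I ≠ ⊥) : σ • I ≠ ⊥ := by
  intro h
  apply hI
  have : σ⁻¹ • (σ • I) = σ⁻¹ • (⊥ : Ideal (𝓞 K)) := by rw [h]
  rw [inv_smul_smul] at this
  rw [this, Ideal.pointwise_smul_def, Ideal.map_bot]

/-- the class of `σ • 𝔞` when `𝔞 ^ p = (α)` and `σ α = α ^ m * γ ^ p` -/
lemma cls_smul_eq {p : ℕ} (hp : p ≠ 0) {α : 𝓞 K} (hα : α ≠ 0) {𝔞 : Ideal (𝓞 K)}
    (h𝔞 : span {α} = 𝔞 ^ p) (σ : K ≃ₐ[ℚ] K) (m : ℕ) (γ : K)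
    (hγ : σ (α : K) = (α : K) ^ m * γ ^ p) : cls (σ • 𝔞) = cls 𝔞 ^ m := by
  have h𝔞0 : 𝔞 ≠ ⊥ := by
    rintro rfl
    rw [← Ideal.zero_eq_bot, zero_pow hp, Ideal.zero_eq_bot, Ideal.span_singleton_eq_bot] at h𝔞
    exact hα h𝔞
  have hαK : (α : K) ≠ 0 := by simpa using hα
  have hσα : σ (α : K) ≠ 0 := by simpa using hαK
  have hγ0 : γ ≠ 0 := by
    rintro rfl
    rw [zero_pow hp, mul_zero] at hγ
    exact hσα hγ
  obtain ⟨r, t, ht, hrt⟩ := IsFractionRing.div_surjective (A := 𝓞 K) γ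
  have ht0 : t ≠ 0 := nonZeroDivisors.ne_zero ht
  have htK : (algebraMap (𝓞 K) K t) ≠ 0 := by simpa using ht0
  have hr0 : r ≠ 0 := by
    rintro rfl
    rw [map_zero, zero_div] at hrt
    exact hγ0 hrt.symm
  have heq : t ^ p * (σ • α) = α ^ m * r ^ p := by
    apply RingOfIntegers.coe_injective
    have h1 : algebraMap (𝓞 K) K (σ • α) = σ (α : K) := rfl
    have h2 : algebraMap (𝓞 K) K α = (α : K) := rfl
    rw [map_mul, map_mul, map_pow, map_pow, map_pow, h1, hγ, ← hrt, div_pow, h2]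
    field_simp
  have hideal : (span {t} * σ • 𝔞) ^ p = (𝔞 ^ m * span {r}) ^ p := by
    rw [mul_pow, mul_pow, ← smul_pow', ← h𝔞, smul_span_singleton, ← pow_mul, mul_comm m p, pow_mul,
      ← h𝔞, Ideal.span_singleton_pow, Ideal.span_singleton_pow, Ideal.span_singleton_pow,
      Ideal.span_singleton_mul_span_singleton, Ideal.span_singleton_mul_span_singleton, heq]
  have h1 := ideal_pow_inj hp hideal
  have h2 := congrArg cls h1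
  rw [cls_mul (by simpa using ht0) (smul_ne_bot σ h𝔞0), cls_mul (pow_ne_zero m h𝔞0)
    (by simpa using hr0), cls_span_singleton ht0, cls_span_singleton hr0, one_mul, mul_one,
    cls_pow h𝔞0] at h2
  exact h2

/-- an element of `K` whose `p`-th power is a unit of `𝓞 K` is a unit of `𝓞 K` -/
lemma exists_unit_of_pow {p : ℕ} (hp : p ≠ 0) (w : K) (e : (𝓞 K)ˣ)
    (h : w ^ p = ((e : 𝓞 K) : K)) : ∃ v : (𝓞 K)ˣ, ((v : 𝓞 K) : K) = w := by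
  have he0 : ((e : 𝓞 K) : K) ≠ 0 := by simp
  have hw0 : w ≠ 0 := by
    rintro rfl
    rw [zero_pow hp] at h
    exact he0 h.symm
  have hw : IsIntegral ℤ w := by
    apply IsIntegral.of_pow (Nat.pos_of_ne_zero hp)
    rw [h]
    exact RingOfIntegers.isIntegral_coe _
  have hw' : IsIntegral ℤ w⁻¹ := by
    apply IsIntegral.of_pow (Nat.pos_of_ne_zero hp)
    have : (w⁻¹) ^ p = (((e⁻¹ : (𝓞 K)ˣ) : 𝓞 K) : K) := by
      rw [inv_pow, h]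
      have h1 : ((e : 𝓞 K) : K) * (((e⁻¹ : (𝓞 K)ˣ) : 𝓞 K) : K) = 1 := by
        rw [← map_mul]; simp
      exact inv_eq_of_mul_eq_one_right h1
    rw [this]
    exact RingOfIntegers.isIntegral_coe _
  obtain ⟨w1, hw1⟩ : ∃ w1 : 𝓞 K, algebraMap (𝓞 K) K w1 = w := ⟨⟨w, hw⟩, rfl⟩
  obtain ⟨w2, hw2⟩ : ∃ w2 : 𝓞 K, algebraMap (𝓞 K) K w2 = w⁻¹ := ⟨⟨w⁻¹, hw'⟩, rfl⟩
  refine ⟨⟨w1, w2, ?_, ?_⟩, hw1⟩
  · apply RingOfIntegers.coe_injective
    rw [map_mul, map_one, hw1, hw2]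
    exact mul_inv_cancel₀ hw0
  · apply RingOfIntegers.coe_injective
    rw [map_mul, map_one, hw1, hw2]
    exact inv_mul_cancel₀ hw0

end NFFive

open NFFive in
/-- `nf_core_five`, with the two blueprint nodes it depends on as explicit hypotheses. -/
theorem nf_core_five_of {p : ℕ} [Fact p.Prime] {K : Type*} [Field K] [NumberField K]
    [IsCyclotomicExtension {p} ℚ K] {ζ : K} (hζ : IsPrimitiveRoot ζ p)
    (H1 : ∀ 𝔞 : Ideal (𝓞 K), 𝔞 ≠ ⊥ → cls 𝔞 ^ p = 1 →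
      (∀ (σ : K ≃ₐ[ℚ] K) (b : ℕ), σ ζ = ζ ^ b → cls (σ • 𝔞) = cls 𝔞 ^ (b ^ 2)) → cls 𝔞 = 1)
    (H2 : ∀ u : (𝓞 K)ˣ, IsEigenUnit p ζ u → ∀ x : 𝓞 K,
      (u : 𝓞 K) - x ^ p ∈ (span {hζ.toInteger - 1} : Ideal (𝓞 K)) ^ 3 → ∃ v : (𝓞 K)ˣ, u = v ^ p)
    (α : 𝓞 K) (hα : α ≠ 0)
    (hloc : α - 1 ∈ (span {hζ.toInteger - 1} : Ideal (𝓞 K)) ^ 3)
    (hid : ∃ 𝔞 : Ideal (𝓞 K), span {α} = 𝔞 ^ p)
    (heig : ∀ (σ : K ≃ₐ[ℚ] K) (a : ℕ), σ ζ = ζ ^ a →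
      ∃ γ : K, σ (α : K) = (α : K) ^ (a ^ 2) * γ ^ p) :
    ∃ γ : K, (α : K) = γ ^ p := by
  have hp : p ≠ 0 := (Fact.out : p.Prime).ne_zero
  obtain ⟨𝔞, h𝔞⟩ := hid
  have h𝔞0 : 𝔞 ≠ ⊥ := by
    rintro rfl
    rw [← Ideal.zero_eq_bot, zero_pow hp, Ideal.zero_eq_bot, Ideal.span_singleton_eq_bot] at h𝔞
    exact hα h𝔞
  have hpow : cls 𝔞 ^ p = 1 := by rw [← cls_pow h𝔞0, ← h𝔞, cls_span_singleton hα]
  have hcl : cls 𝔞 = 1 := H1 𝔞 h𝔞0 hpow (fun σ b hσ => by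
    obtain ⟨γ, hγ⟩ := heig σ b hσ
    exact cls_smul_eq hp hα h𝔞 σ _ γ hγ)
  obtain ⟨g0, hg0⟩ := (cls_eq_one_iff h𝔞0).mp hcl
  have hg0' : 𝔞 = span {g0} := hg0
  have hg00 : g0 ≠ 0 := by
    rintro rfl
    apply h𝔞0
    rw [hg0']
    simp
  have hassoc : Associated (g0 ^ p) α := by
    rw [← Ideal.span_singleton_eq_span_singleton, h𝔞, hg0', Ideal.span_singleton_pow]
  obtain ⟨u, hu⟩ := hassoc
  have hg0K : (g0 : K) ≠ 0 := by simpa using hg00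
  have huK : ((u : 𝓞 K) : K) ≠ 0 := by simp
  have hαK : (α : K) = (g0 : K) ^ p * ((u : 𝓞 K) : K) := by
    rw [← hu]; simp
  -- `u` is an eigen-unit
  have hEig : IsEigenUnit p ζ u := by
    intro σ b hσ
    obtain ⟨γ, hγ⟩ := heig σ b hσ
    have hσg : σ (g0 : K) ≠ 0 := by simpa using hg0K
    set w : K := (g0 : K) ^ (b ^ 2) * γ / σ (g0 : K) with hw
    have hkey : σ ((u : 𝓞 K) : K) = ((u : 𝓞 K) : K) ^ (b ^ 2) * w ^ p := by
      rw [hαK, map_mul, map_pow] at hγ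
      have h1 : σ ((u : 𝓞 K) : K) =
          ((g0 : K) ^ p * ((u : 𝓞 K) : K)) ^ (b ^ 2) * γ ^ p / σ (g0 : K) ^ p := by
        rw [← hγ]; field_simp
      rw [h1, hw, div_pow, mul_pow, mul_pow, ← pow_mul, ← pow_mul, mul_comm p (b ^ 2)]
      ring
    let σu : (𝓞 K)ˣ := Units.map (MulSemiringAction.toRingHom (K ≃ₐ[ℚ] K) (𝓞 K) σ).toMonoidHom u
    have hσu : algebraMap (𝓞 K) K (σu : 𝓞 K) = σ ((u : 𝓞 K) : K) := rfl
    have hwp : w ^ p = algebraMap (𝓞 K) K ((σu * (u ^ (b ^ 2))⁻¹ : (𝓞 K)ˣ) : 𝓞 K) := by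
      have h2 : algebraMap (𝓞 K) K ((u ^ (b ^ 2) : (𝓞 K)ˣ) : 𝓞 K) *
          algebraMap (𝓞 K) K (((u ^ (b ^ 2))⁻¹ : (𝓞 K)ˣ) : 𝓞 K) = 1 := by
        rw [← map_mul]; simp
      have h3 : algebraMap (𝓞 K) K ((u ^ (b ^ 2) : (𝓞 K)ˣ) : 𝓞 K) = ((u : 𝓞 K) : K) ^ (b ^ 2) := by
        simp
      rw [Units.val_mul, map_mul, hσu, hkey, mul_comm _ (w ^ p), mul_assoc, ← h3, h2, mul_one]
    obtain ⟨v, hv⟩ := exists_unit_of_pow hp w _ hwp
    refine ⟨v, ?_⟩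
    apply RingOfIntegers.coe_injective
    have h4 : algebraMap (𝓞 K) K (σ • (u : 𝓞 K)) = σ ((u : 𝓞 K) : K) := rfl
    have h5 : algebraMap (𝓞 K) K (v : 𝓞 K) = w := hv
    have h6 : algebraMap (𝓞 K) K (u : 𝓞 K) = ((u : 𝓞 K) : K) := rfl
    rw [map_mul, map_pow, map_pow, h4, h5, h6, hkey]
  -- the local condition
  set lam : Ideal (𝓞 K) := span {hζ.toInteger - 1} with hlam
  have hprime : Prime (hζ.toInteger - 1) := hζ.zeta_sub_one_prime'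
  have hlamP : lam.IsPrime := (Ideal.span_singleton_prime hprime.ne_zero).mpr hprime
  have hlam0 : lam ≠ ⊥ := by simpa [hlam] using hprime.ne_zero
  have hmax : lam.IsMaximal := hlamP.isMaximal hlam0
  have hg0lam : g0 ∉ lam := by
    intro hmem
    have h1 : α ∈ lam := by
      rw [← hu]
      exact Ideal.mul_mem_right _ _ (Ideal.pow_mem_of_mem _ hmem p (Nat.pos_of_ne_zero hp))
    have h2 : α - 1 ∈ lam := Ideal.pow_le_self (by norm_num) hloc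
    have h3 : (1 : 𝓞 K) ∈ lam := by
      have := lam.sub_mem h1 h2
      simpa using this
    exact hlamP.ne_top ((Ideal.eq_top_iff_one _).mpr h3)
  obtain ⟨y, i, hi, hyi⟩ := hmax.exists_inv hg0lam
  set x : 𝓞 K := 3 * y - 3 * y ^ 2 * g0 + y ^ 3 * g0 ^ 2 with hx
  have hx1 : 1 - x * g0 ∈ lam ^ 3 := by
    have h1 : 1 - x * g0 = i ^ 3 := by
      have : i = 1 - y * g0 := by rw [← hyi]; ring
      rw [this, hx]; ring
    rw [h1]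
    exact Ideal.pow_mem_pow hi 3
  have hux : (u : 𝓞 K) - x ^ p ∈ lam ^ 3 := by
    rw [← Ideal.Quotient.eq_zero_iff_mem, map_sub, sub_eq_zero]
    have e1 : Ideal.Quotient.mk (lam ^ 3) α = 1 := by
      rw [← map_one (Ideal.Quotient.mk (lam ^ 3)), Ideal.Quotient.eq]; exact hloc
    have e2 : Ideal.Quotient.mk (lam ^ 3) (x * g0) = 1 := by
      rw [← map_one (Ideal.Quotient.mk (lam ^ 3)), eq_comm, Ideal.Quotient.eq]; exact hx1
    calc Ideal.Quotient.mk (lam ^ 3) (u : 𝓞 K)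
        = Ideal.Quotient.mk (lam ^ 3) (u : 𝓞 K) * (Ideal.Quotient.mk (lam ^ 3) (x * g0)) ^ p := by
          rw [e2, one_pow, mul_one]
      _ = Ideal.Quotient.mk (lam ^ 3) (g0 ^ p * u) * Ideal.Quotient.mk (lam ^ 3) (x ^ p) := by
          simp only [map_mul, map_pow]; ring
      _ = Ideal.Quotient.mk (lam ^ 3) (x ^ p) := by rw [hu, e1, one_mul]
  obtain ⟨v, hv⟩ := H2 u hEig x hux
  refine ⟨(g0 : K) * ((v : 𝓞 K) : K), ?_⟩
  rw [hαK, hv, mul_pow]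
  simp

end Fermat.Agent.S14
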