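import Fermat.Agent.S14.Defs

/-!
# S14-NF3 : the number field core for `p = 3`

`𝓞 ℚ(ζ₃)` is a PID with units `± ζ^k`; an `ω²`-eigen element generating a cube of an ideal is
a cube.
-/

set_option autoImplicit false

namespace Fermat.Agent.S14

open NumberField Ideal

namespace NFThree

variable {K : Type*} [Field K] [NumberField K] [IsCyclotomicExtension {3} ℚ K]

/-- every unit of `𝓞 ℚ(ζ₃)` is `± ζ^k`, in `K` -/
theorem unit_cases {ζ : K} (hζ : IsPrimitiveRoot ζ 3) (u : (𝓞 K)ˣ) :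
    ((u : 𝓞 K) : K) = 1 ∨ ((u : 𝓞 K) : K) = -1 ∨ ((u : 𝓞 K) : K) = ζ ∨ ((u : 𝓞 K) : K) = -ζ ∨
      ((u : 𝓞 K) : K) = ζ ^ 2 ∨ ((u : 𝓞 K) : K) = -ζ ^ 2 := by
  have h := IsCyclotomicExtension.Rat.Three.Units.mem hζ u
  simp only [List.mem_cons, List.not_mem_nil, or_false] at h
  rcases h with h | h | h | h | h | h <;> rw [h]
  · left; simp
  · right; left; simp
  · right; right; left; exact hζ.coe_toInteger
  · right; right; right; left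
    simp only [Units.val_neg, IsUnit.unit_spec, map_neg]
    rw [show (algebraMap (𝓞 K) K) hζ.toInteger = ζ from hζ.coe_toInteger]
  · right; right; right; right; left
    simp only [Units.val_pow_eq_pow_val, IsUnit.unit_spec, map_pow]
    rw [show (algebraMap (𝓞 K) K) hζ.toInteger = ζ from hζ.coe_toInteger]
  · right; right; right; right; right
    simp only [Units.val_neg, Units.val_pow_eq_pow_val, IsUnit.unit_spec, map_neg, map_pow]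
    rw [show (algebraMap (𝓞 K) K) hζ.toInteger = ζ from hζ.coe_toInteger]

theorem unit_pow_six {ζ : K} (hζ : IsPrimitiveRoot ζ 3) (u : (𝓞 K)ˣ) :
    ((u : 𝓞 K) : K) ^ 6 = 1 := by
  have h3 : ζ ^ 3 = 1 := hζ.pow_eq_one
  rcases unit_cases hζ u with h | h | h | h | h | h <;> rw [h]
  · ring
  · ring
  · calc ζ ^ 6 = (ζ ^ 3) ^ 2 := by ring
      _ = 1 := by rw [h3]; ring
  · calc (-ζ) ^ 6 = (ζ ^ 3) ^ 2 := by ring
      _ = 1 := by rw [h3]; ring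
  · calc (ζ ^ 2) ^ 6 = (ζ ^ 3) ^ 4 := by ring
      _ = 1 := by rw [h3]; ring
  · calc (-ζ ^ 2) ^ 6 = (ζ ^ 3) ^ 4 := by ring
      _ = 1 := by rw [h3]; ring

/-- an element of `K` whose cube is a unit of `𝓞 K` has sixth power `1` -/
theorem pow_six_of_cube_eq_unit {ζ : K} (hζ : IsPrimitiveRoot ζ 3) (w : K) (u : (𝓞 K)ˣ)
    (h : w ^ 3 = ((u : 𝓞 K) : K)) : w ^ 6 = 1 := by
  have hint : IsIntegral ℤ w := by
    apply IsIntegral.of_pow (n := 3) (by norm_num)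
    rw [h]
    exact RingOfIntegers.isIntegral_coe _
  let W : 𝓞 K := ⟨w, hint⟩
  have hW : W ^ 3 = (u : 𝓞 K) := by
    apply RingOfIntegers.ext
    change algebraMap (𝓞 K) K (W ^ 3) = _
    rw [map_pow]
    exact h
  have hWu : IsUnit W := by
    have : IsUnit (W ^ 3) := by rw [hW]; exact u.isUnit
    exact (isUnit_pow_iff (by norm_num)).mp this
  obtain ⟨W', hW'⟩ := hWu
  have := unit_pow_six hζ W'
  rw [hW'] at this
  exact this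

theorem exists_sigma {ζ : K} (hζ : IsPrimitiveRoot ζ 3) : ∃ σ : K ≃ₐ[ℚ] K, σ ζ = ζ ^ 2 := by
  let e : (ZMod 3)ˣ := ⟨2, 2, by decide, by decide⟩
  refine ⟨(IsCyclotomicExtension.Rat.galEquivZMod 3 K).symm e, ?_⟩
  rw [IsCyclotomicExtension.Rat.galEquivZMod_apply_of_pow_eq 3 K _ hζ.pow_eq_one,
    MulEquiv.apply_symm_apply]
  rfl

omit [NumberField K] [IsCyclotomicExtension {3} ℚ K] in
theorem zeta_ne_one {ζ : K} (hζ : IsPrimitiveRoot ζ 3) : ζ ≠ 1 := hζ.ne_one (by norm_num)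

theorem core {ζ : K} (hζ : IsPrimitiveRoot ζ 3) (α : 𝓞 K) (hα : α ≠ 0)
    (hid : ∃ 𝔞 : Ideal (𝓞 K), span {α} = 𝔞 ^ 3)
    (heig : ∀ (σ : K ≃ₐ[ℚ] K) (a : ℕ), σ ζ = ζ ^ a →
      ∃ γ : K, σ (α : K) = (α : K) ^ (a ^ 2) * γ ^ 3) :
    ∃ γ : K, (α : K) = γ ^ 3 := by
  have hpid : IsPrincipalIdealRing (𝓞 K) := IsCyclotomicExtension.Rat.three_pid K
  obtain ⟨𝔞, h𝔞⟩ := hid
  obtain ⟨g, hg⟩ := (IsPrincipalIdealRing.principal 𝔞).principal
  rw [hg, Ideal.submodule_span_eq, Ideal.span_singleton_pow,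
    Ideal.span_singleton_eq_span_singleton] at h𝔞
  obtain ⟨u, hu⟩ := h𝔞.symm
  -- `g ^ 3 * u = α`
  have hαK : (α : K) = (g : K) ^ 3 * ((u : 𝓞 K) : K) := by
    rw [← hu]
    change algebraMap (𝓞 K) K (g ^ 3 * (u : 𝓞 K)) = _
    rw [map_mul, map_pow]
  have hg0 : (g : K) ≠ 0 := by
    intro h
    apply hα
    apply RingOfIntegers.ext
    rw [hαK, h]
    simp
  have hu0 : ((u : 𝓞 K) : K) ≠ 0 := by
    intro h
    apply hα
    apply RingOfIntegers.ext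
    rw [hαK, h]
    simp
  obtain ⟨σ, hσ⟩ := exists_sigma hζ
  obtain ⟨γ, hγ⟩ := heig σ 2 hσ
  have h3 : ζ ^ 3 = 1 := hζ.pow_eq_one
  have hζ0 : ζ ≠ 0 := hζ.ne_zero (by norm_num)
  have hσg0 : σ (g : K) ≠ 0 := (map_ne_zero σ).mpr hg0
  -- the key relation `σ u = u ^ 4 * w ^ 3`
  set U : K := ((u : 𝓞 K) : K) with hU
  set w : K := (g : K) ^ 4 * γ / σ (g : K) with hw
  have hrel : σ U = U ^ 4 * w ^ 3 := by
    rw [hαK, map_mul, map_pow] at hγ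
    rw [hw]
    field_simp
    linear_combination hγ
  have hU6 : U ^ 6 = 1 := unit_pow_six hζ u
  -- `w ^ 3` is a unit
  have hσU : ∃ u' : (𝓞 K)ˣ, σ U = ((u' : 𝓞 K) : K) := by
    rcases unit_cases hζ u with h | h | h | h | h | h
    · exact ⟨1, by rw [hU, h]; simp⟩
    · exact ⟨-1, by rw [hU, h]; simp⟩
    · refine ⟨u ^ 2, ?_⟩
      rw [hU, h, hσ]
      simp [h]
    · refine ⟨-u ^ 2, ?_⟩
      rw [hU, h, map_neg, hσ]
      simp [h]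
    · refine ⟨u ^ 2, ?_⟩
      rw [hU, h, map_pow, hσ]
      simp [h]
    · refine ⟨-u ^ 2, ?_⟩
      rw [hU, h, map_neg, map_pow, hσ]
      simp [h]
  obtain ⟨u', hu'⟩ := hσU
  have hw3 : w ^ 3 = (((u' * u ^ 2 : (𝓞 K)ˣ) : 𝓞 K) : K) := by
    have : w ^ 3 = σ U * U ^ 2 := by
      rw [hrel]
      calc w ^ 3 = U ^ 6 * w ^ 3 := by rw [hU6, one_mul]
        _ = U ^ 4 * w ^ 3 * U ^ 2 := by ring
    rw [this, hu']
    simp [hU]
  have hw6 : w ^ 6 = 1 := pow_six_of_cube_eq_unit hζ w _ hw3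
  have hsq : σ U ^ 2 = U ^ 2 := by
    rw [hrel]
    calc (U ^ 4 * w ^ 3) ^ 2 = U ^ 6 * U ^ 2 * w ^ 6 := by ring
      _ = U ^ 2 := by rw [hU6, hw6]; ring
  rcases unit_cases hζ u with h | h | h | h | h | h
  · exact ⟨g, by rw [hαK, hU, h, mul_one]⟩
  · exact ⟨-g, by rw [hαK, hU, h]; ring⟩
  · exfalso
    rw [hU, h, hσ] at hsq
    apply zeta_ne_one hζ
    have e1 : ζ ^ 2 * ζ = ζ ^ 2 * 1 := by
      calc ζ ^ 2 * ζ = ζ ^ 3 := by ring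
        _ = ζ ^ 3 * (ζ ^ 3) := by rw [h3]; ring
        _ = (ζ ^ 2) ^ 2 * ζ ^ 2 := by ring
        _ = ζ ^ 2 * ζ ^ 2 := by rw [hsq]
        _ = ζ ^ 3 * ζ := by ring
        _ = ζ := by rw [h3, one_mul]
        _ = ζ ^ 3 * ζ := by rw [h3, one_mul]
        _ = (ζ ^ 2) ^ 2 := by ring
        _ = ζ ^ 2 * 1 := by rw [hsq, mul_one]
    exact mul_left_cancel₀ (pow_ne_zero 2 hζ0) e1
  · exfalso
    rw [hU, h, map_neg, hσ] at hsq
    apply zeta_ne_one hζ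
    have hsq' : (ζ ^ 2) ^ 2 = ζ ^ 2 := by linear_combination hsq
    have e1 : ζ ^ 2 * ζ = ζ ^ 2 * 1 := by
      calc ζ ^ 2 * ζ = ζ ^ 3 := by ring
        _ = ζ ^ 3 * (ζ ^ 3) := by rw [h3]; ring
        _ = (ζ ^ 2) ^ 2 * ζ ^ 2 := by ring
        _ = ζ ^ 2 * ζ ^ 2 := by rw [hsq']
        _ = (ζ ^ 2) ^ 2 := by ring
        _ = ζ ^ 2 * 1 := by rw [hsq', mul_one]
    exact mul_left_cancel₀ (pow_ne_zero 2 hζ0) e1
  · exfalso
    rw [hU, h, map_pow, hσ] at hsq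
    apply zeta_ne_one hζ
    -- `ζ ^ 8 = ζ ^ 4`, i.e. `ζ ^ 2 = ζ`
    have e1 : ζ * ζ = ζ * 1 := by
      calc ζ * ζ = (ζ ^ 3) ^ 2 * ζ ^ 2 := by rw [h3]; ring
        _ = ((ζ ^ 2) ^ 2) ^ 2 := by ring
        _ = (ζ ^ 2) ^ 2 := hsq
        _ = ζ ^ 3 * ζ := by ring
        _ = ζ * 1 := by rw [h3]; ring
    exact mul_left_cancel₀ hζ0 e1
  · exfalso
    rw [hU, h, map_neg, map_pow, hσ] at hsq
    apply zeta_ne_one hζ
    have hsq' : ((ζ ^ 2) ^ 2) ^ 2 = (ζ ^ 2) ^ 2 := by linear_combination hsq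
    have e1 : ζ * ζ = ζ * 1 := by
      calc ζ * ζ = (ζ ^ 3) ^ 2 * ζ ^ 2 := by rw [h3]; ring
        _ = ((ζ ^ 2) ^ 2) ^ 2 := by ring
        _ = (ζ ^ 2) ^ 2 := hsq'
        _ = ζ ^ 3 * ζ := by ring
        _ = ζ * 1 := by rw [h3]; ring
    exact mul_left_cancel₀ hζ0 e1

end NFThree

variable {p : ℕ} [Fact p.Prime] {K : Type*} [Field K] [NumberField K]
  [IsCyclotomicExtension {p} ℚ K]

theorem nf_core_three (hp3 : p = 3) {ζ : K} (hζ : IsPrimitiveRoot ζ p) (α : 𝓞 K) (hα : α ≠ 0)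
    (hid : ∃ 𝔞 : Ideal (𝓞 K), span {α} = 𝔞 ^ p)
    (heig : ∀ (σ : K ≃ₐ[ℚ] K) (a : ℕ), σ ζ = ζ ^ a →
      ∃ γ : K, σ (α : K) = (α : K) ^ (a ^ 2) * γ ^ p) :
    ∃ γ : K, (α : K) = γ ^ p := by
  subst hp3
  exact NFThree.core hζ α hα hid heig

end Fermat.Agent.S14
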