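/-
S14, block SPLIT: a prime of `K` at which `η` is a `p`-th power residue has `p` primes of the
same norm above it in `K(η^(1/p))`.  Owner helper115.
-/
import Mathlib

set_option autoImplicit false

namespace Fermat.Agent.S14

open NumberField Ideal Polynomial

namespace SplitPrimes

/-- `1 - ζ^d` divides `p`. -/
theorem one_sub_pow_dvd {R : Type*} [CommRing R] [IsDomain R] {p : ℕ} [Fact p.Prime] {ζ : R}
    (hζ : IsPrimitiveRoot ζ p) {d : ℕ} (hd0 : 0 < d) (hd : d < p) : (1 - ζ ^ d) ∣ (p : R) := by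
  have hp : p.Prime := Fact.out
  have hcop : d.Coprime p := (Nat.coprime_of_lt_prime hd0.ne' hd hp).symm
  have hμ : IsPrimitiveRoot (ζ ^ d) p := hζ.pow_of_coprime d hcop
  have h1 : (p : R) = ∏ μ ∈ primitiveRoots p R, (1 - μ) := by
    rw [← eval_one_cyclotomic_prime (R := R) (p := p), cyclotomic_eq_prod_X_sub_primitiveRoots hζ,
      eval_prod]
    simp
  rw [h1]
  exact Finset.dvd_prod_of_mem (fun μ => 1 - μ) ((mem_primitiveRoots hp.pos).mpr hμ)

/-- The Kummer automorphism `b ↦ ζ b`, on rings of integers. -/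
theorem exists_kummer_aut {K N : Type*} [Field K] [NumberField K] [Field N] [NumberField N]
    [Algebra K N] (p : ℕ) [Fact p.Prime] (hdeg : Module.finrank K N = p) (ζ : 𝓞 K)
    (hζ : IsPrimitiveRoot ζ p) (η : 𝓞 K) (hirr : ¬ ∃ c : K, (η : K) = c ^ p)
    (b : 𝓞 N) (hb : b ^ p = algebraMap (𝓞 K) (𝓞 N) η) :
    ∃ e : 𝓞 N ≃ₐ[𝓞 K] 𝓞 N, e b = algebraMap (𝓞 K) (𝓞 N) ζ * b := by
  have hp : p.Prime := Fact.out
  have : NeZero p := ⟨hp.ne_zero⟩
  have H : Irreducible (X ^ p - C (η : K)) :=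
    X_pow_sub_C_irreducible_of_prime hp (fun c hc => hirr ⟨c, hc.symm⟩)
  have hζK : IsPrimitiveRoot (ζ : K) p :=
    hζ.map_of_injective (RingOfIntegers.coe_injective)
  have hbN : (b : N) ^ p = algebraMap K N (η : K) := by
    have := congrArg (algebraMap (𝓞 N) N) hb
    rw [map_pow] at this
    rw [this]
    rw [← IsScalarTower.algebraMap_apply, ← IsScalarTower.algebraMap_apply]
  have hmin : X ^ p - C (η : K) = minpoly K (b : N) := by
    refine minpoly.eq_of_irreducible_of_monic H ?_ (monic_X_pow_sub_C _ hp.ne_zero)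
    simp [hbN]
  have htop : IntermediateField.adjoin K {(b : N)} = ⊤ := by
    rw [Field.primitive_element_iff_minpoly_natDegree_eq, ← hmin, natDegree_X_pow_sub_C, hdeg]
  have hsplit : IsSplittingField K N (X ^ p - C (η : K)) := by
    have := isSplittingField_X_pow_sub_C_of_root_adjoin_eq_top (K := K) (L := N)
      (by rw [hdeg]; exact ⟨_, (mem_primitiveRoots hp.pos).mpr hζK⟩) (a := (η : K)) (α := (b : N))
      (by rw [hdeg]; exact hbN) htop
    rwa [hdeg] at this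
  let g : N ≃ₐ[K] N := (autEquivZmod H N hζK).symm (Multiplicative.ofAdd ((1 : ℕ) : ZMod p))
  have hg : g (b : N) = (ζ : K) ^ 1 • (b : N) := autEquivZmod_symm_apply_natCast H N hbN hζK 1
  refine ⟨RingOfIntegers.mapAlgEquiv g, ?_⟩
  apply RingOfIntegers.coe_injective
  show g (b : N) = _
  rw [hg, pow_one, Algebra.smul_def, map_mul]
  congr 1

/-- Iterating the Kummer automorphism. -/
theorem kummer_aut_pow {A B : Type*} [CommRing A] [CommRing B] [Algebra A B] (e : B ≃ₐ[A] B)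
    (z : A) (b : B) (he : e b = algebraMap A B z * b) (m : ℕ) :
    (e ^ m) b = algebraMap A B z ^ m * b := by
  induction m with
  | zero => simp
  | succ m ih =>
    rw [pow_succ', AlgEquiv.mul_apply, ih, map_mul, map_pow, AlgEquiv.commutes, he]
    ring

/-- For every `j` there is a prime over `𝔩` containing `b - x ζ^j`. -/
theorem exists_prime_over {K N : Type*} [Field K] [NumberField K] [Field N] [NumberField N]
    [Algebra K N] (p : ℕ) [Fact p.Prime] (hdeg : Module.finrank K N = p) (ζ : 𝓞 K)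
    (hζ : IsPrimitiveRoot ζ p) (η : 𝓞 K) (hirr : ¬ ∃ c : K, (η : K) = c ^ p)
    (b : 𝓞 N) (hb : b ^ p = algebraMap (𝓞 K) (𝓞 N) η)
    (𝔩 : Ideal (𝓞 K)) [𝔩.IsPrime] (x : 𝓞 K) (hx : x ^ p - η ∈ 𝔩) (j : ℕ) :
    ∃ Q : Ideal (𝓞 N), Q.IsPrime ∧ Q.comap (algebraMap (𝓞 K) (𝓞 N)) = 𝔩 ∧
      b - algebraMap (𝓞 K) (𝓞 N) (x * ζ ^ j) ∈ Q := by
  have hp : p.Prime := Fact.out
  obtain ⟨e, he⟩ := exists_kummer_aut p hdeg ζ hζ η hirr b hb
  obtain ⟨⟨L, hL1, hL2⟩⟩ := 𝔩.nonempty_primesOver (S := 𝓞 N)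
  have hLc : L.comap (algebraMap (𝓞 K) (𝓞 N)) = 𝔩 := hL2.over.symm
  set φ := algebraMap (𝓞 K) (𝓞 N) with hφ
  have hζN : IsPrimitiveRoot (φ ζ) p :=
    hζ.map_of_injective (FaithfulSMul.algebraMap_injective (𝓞 K) (𝓞 N))
  -- the product of the `b - x ζ^i` lies in `L`
  have hprod : ∏ i ∈ Finset.range p, (b - φ ζ ^ i * φ x) ∈ L := by
    have h1 := X_pow_sub_C_eq_prod hζN hp.pos (α := φ x) (a := φ x ^ p) rfl
    have h2 := congrArg (eval b) h1
    rw [eval_prod] at h2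
    simp only [eval_sub, eval_pow, eval_X, eval_C] at h2
    rw [← h2, hb, ← map_pow, ← map_sub]
    have : η - x ^ p ∈ 𝔩 := by
      have := 𝔩.neg_mem hx
      rwa [neg_sub] at this
    rw [← hLc] at this
    exact this
  obtain ⟨i, hi, hiL⟩ := (hL1.prod_mem_iff).mp hprod
  rw [Finset.mem_range] at hi
  -- transport by a power of the automorphism
  let m := j + (p - i)
  refine ⟨L.comap ((e ^ m : 𝓞 N ≃ₐ[𝓞 K] 𝓞 N) : 𝓞 N →+* 𝓞 N), inferInstance, ?_, ?_⟩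
  · rw [Ideal.comap_comap]
    have : ((e ^ m : 𝓞 N ≃ₐ[𝓞 K] 𝓞 N) : 𝓞 N →+* 𝓞 N).comp φ = φ := by
      ext1 y
      exact (e ^ m).commutes y
    rw [this, hLc]
  · rw [Ideal.mem_comap]
    have h3 : ((e ^ m : 𝓞 N ≃ₐ[𝓞 K] 𝓞 N) : 𝓞 N →+* 𝓞 N) (b - φ (x * ζ ^ j)) =
        φ ζ ^ m * (b - φ ζ ^ i * φ x) := by
      have h4 : (e ^ m) (b - φ (x * ζ ^ j)) = φ ζ ^ m * b - φ (x * ζ ^ j) := by
        rw [map_sub, kummer_aut_pow e ζ b he m, AlgEquiv.commutes]
      have h5 : φ ζ ^ (m + i) = φ ζ ^ j := by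
        have : m + i = j + p := by omega
        rw [this, pow_add, hζN.pow_eq_one, mul_one]
      show (e ^ m) (b - φ (x * ζ ^ j)) = _
      rw [h4, mul_sub, ← mul_assoc, ← pow_add, h5, map_mul, map_pow]
      ring
    rw [h3]
    exact L.mul_mem_left _ hiL

/-- If there are at least `[N:K]` primes over `𝔩`, all of them have the norm of `𝔩`. -/
theorem absNorm_eq_of_card_le {K N : Type*} [Field K] [NumberField K] [Field N] [NumberField N]
    [Algebra K N] (𝔩 : Ideal (𝓞 K)) [𝔩.IsPrime] [Fintype (𝔩.primesOver (𝓞 N))]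
    (hcard : Module.finrank K N ≤ Fintype.card (𝔩.primesOver (𝓞 N)))
    (Q : Ideal (𝓞 N)) (hQ : Q ∈ 𝔩.primesOver (𝓞 N)) : absNorm Q = absNorm 𝔩 := by
  have hsum := Ideal.sum_ramification_inertia_eq_finrank 𝔩 (𝓞 N)
  rw [← IsFractionRing.finrank_eq (𝓞 K) K (𝓞 N) N] at hsum
  have hone : ∀ q ∈ (Finset.univ : Finset (𝔩.primesOver (𝓞 N))),
      1 ≤ q.1.ramificationIdx (𝓞 K) * q.1.inertiaDeg (𝓞 K) := by
    intro q _
    have := q.2.1
    exact Nat.mul_pos (ramificationIdx_pos q.1 (𝓞 K)) (inertiaDeg_pos q.1 (𝓞 K))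
  have hle : Fintype.card (𝔩.primesOver (𝓞 N)) ≤ Module.finrank K N := by
    rw [← hsum]
    calc Fintype.card (𝔩.primesOver (𝓞 N))
        = ∑ _q : 𝔩.primesOver (𝓞 N), 1 := by simp
      _ ≤ _ := Finset.sum_le_sum hone
  have heq : ∑ _q : 𝔩.primesOver (𝓞 N), 1 =
      ∑ q : 𝔩.primesOver (𝓞 N), q.1.ramificationIdx (𝓞 K) * q.1.inertiaDeg (𝓞 K) := by
    rw [hsum]
    simpa using le_antisymm hle hcard
  have hall := (Finset.sum_eq_sum_iff_of_le hone).mp heq ⟨Q, hQ⟩ (Finset.mem_univ _)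
  have hf : Q.inertiaDeg (𝓞 K) = 1 := Nat.eq_one_of_mul_eq_one_left hall.symm
  have := hQ.1
  have := hQ.2
  rw [← Ideal.absNorm_pow_inertiaDeg 𝔩 Q, hf, pow_one]

end SplitPrimes

open SplitPrimes in
theorem split_primes {K N : Type*} [Field K] [NumberField K] [Field N] [NumberField N] [Algebra K N]
    (p : ℕ) [Fact p.Prime] (hdeg : Module.finrank K N = p) (ζ : 𝓞 K) (hζ : IsPrimitiveRoot ζ p)
    (η : 𝓞 K) (hirr : ¬ ∃ c : K, (η : K) = c ^ p)
    (b : 𝓞 N) (hb : b ^ p = algebraMap (𝓞 K) (𝓞 N) η)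
    (𝔩 : Ideal (𝓞 K)) [𝔩.IsPrime] (h𝔩 : 𝔩 ≠ ⊥) (hp𝔩 : (p : 𝓞 K) ∉ 𝔩) (hη : η ∉ 𝔩)
    (x : 𝓞 K) (hx : x ^ p - η ∈ 𝔩) :
    ∃ S : Finset (Ideal (𝓞 N)), p ≤ S.card ∧ ∀ Q ∈ S, Q.IsPrime ∧
      Q.comap (algebraMap (𝓞 K) (𝓞 N)) = 𝔩 ∧ absNorm Q = absNorm 𝔩 := by
  classical
  have hp : p.Prime := Fact.out
  choose Q hQ1 hQ2 hQ3 using exists_prime_over p hdeg ζ hζ η hirr b hb 𝔩 x hx
  have hx𝔩 : x ∉ 𝔩 := by
    intro h
    apply hη
    have h1 : x ^ p ∈ 𝔩 := 𝔩.pow_mem_of_mem h p hp.pos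
    have := 𝔩.sub_mem h1 hx
    simpa using this
  have hζ𝔩 : ∀ k : ℕ, ζ ^ k ∉ 𝔩 := by
    intro k h
    have hu : IsUnit (ζ ^ k) := (hζ.isUnit hp.ne_zero).pow k
    exact (Ideal.IsPrime.ne_top inferInstance) (𝔩.eq_top_of_isUnit_mem h hu)
  -- distinctness
  have hlt : ∀ i j : ℕ, i < j → j < p → Q i ≠ Q j := by
    intro i j hij hj heq
    have h1 := hQ3 i
    have h2 := hQ3 j
    rw [heq] at h1
    have h3 := (Q j).sub_mem h2 h1
    have h4 : b - algebraMap (𝓞 K) (𝓞 N) (x * ζ ^ j) - (b - algebraMap (𝓞 K) (𝓞 N) (x * ζ ^ i)) =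
        algebraMap (𝓞 K) (𝓞 N) (x * ζ ^ i * (1 - ζ ^ (j - i))) := by
      have : ζ ^ j = ζ ^ i * ζ ^ (j - i) := by rw [← pow_add]; congr 1; omega
      rw [this]
      simp only [map_mul, map_sub, map_one]
      ring
    rw [h4] at h3
    have h5 : x * ζ ^ i * (1 - ζ ^ (j - i)) ∈ 𝔩 := by
      rw [← hQ2 j]
      exact h3
    rcases (Ideal.IsPrime.mem_or_mem inferInstance h5) with h6 | h6
    · rcases (Ideal.IsPrime.mem_or_mem inferInstance h6) with h7 | h7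
      · exact hx𝔩 h7
      · exact hζ𝔩 i h7
    · exact hp𝔩 (𝔩.mem_of_dvd (one_sub_pow_dvd hζ (by omega) (by omega)) h6)
  have hinj : Set.InjOn Q (Finset.range p : Set ℕ) := by
    intro i hi j hj heq
    simp only [Finset.coe_range, Set.mem_Iio] at hi hj
    rcases lt_trichotomy i j with h | h | h
    · exact absurd heq (hlt i j h hj)
    · exact h
    · exact absurd heq.symm (hlt j i h hi)
  have hmem : ∀ j, Q j ∈ 𝔩.primesOver (𝓞 N) := fun j => ⟨hQ1 j, ⟨(hQ2 j).symm⟩⟩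
  have hfin : (𝔩.primesOver (𝓞 N)).Finite := Algebra.QuasiFinite.finite_primesOver 𝔩
  let _ : Fintype (𝔩.primesOver (𝓞 N)) := hfin.fintype
  have hcardS : ((Finset.range p).image Q).card = p := by
    rw [Finset.card_image_of_injOn hinj, Finset.card_range]
  have hcard : Module.finrank K N ≤ Fintype.card (𝔩.primesOver (𝓞 N)) := by
    rw [hdeg, ← hcardS, ← Set.toFinset_card]
    apply Finset.card_le_card
    intro q hq
    obtain ⟨j, -, rfl⟩ := Finset.mem_image.mp hq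
    exact Set.mem_toFinset.mpr (hmem j)
  refine ⟨(Finset.range p).image Q, hcardS.ge, ?_⟩
  intro q hq
  obtain ⟨j, -, rfl⟩ := Finset.mem_image.mp hq
  exact ⟨hQ1 j, hQ2 j, absNorm_eq_of_card_le 𝔩 hcard (Q j) (hmem j)⟩

end Fermat.Agent.S14
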