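import Fermat.Agent.S14.Defs
import Fermat.Agent.S14.Core
import Fermat.Agent.S14.Bridge
import Fermat.Agent.S14.NFThree
import Fermat.Agent.S14.NFFive
import Fermat.Agent.S14.EigenClass
import Fermat.Agent.S14.EigenChar
import Fermat.Agent.S14.AbstractEigen
import Fermat.Agent.S14.SplitPrimes
import Fermat.Agent.S14.Analytic.Final
import Fermat.Agent.S14.Thaine.Char
import Fermat.Agent.S14.Units.Main

/-!
# S14: the arithmetic core `CoreStatement p` (wiring of the Route T nodes)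
-/

set_option autoImplicit false

namespace Fermat.Agent.S14

open NumberField Ideal
open scoped nonZeroDivisors Pointwise

section Cyclo
variable {p : ℕ} [Fact p.Prime] {K : Type} [Field K] [NumberField K]
  [IsCyclotomicExtension {p} ℚ K]

theorem eigenChar_trivial (hp5 : 5 ≤ p) {ζ : K} (hζ : IsPrimitiveRoot ζ p)
    (χ : ClassGroup (𝓞 K) →* Multiplicative (ZMod p)) (hχ : IsEigenChar p ζ χ) : χ = 1 :=
  eigenChar_trivial_of hp5 hζ
    (fun N _ _ _ H m hm hs => Analytic.analytic_core K N H m hm hs)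
    (fun _ _ _ _ hdeg ζ' hζ' η hirr b hb 𝔩 _ h1 h2 h3 x hx =>
      split_primes p hdeg ζ' hζ' η hirr b hb 𝔩 h1 h2 h3 x hx)
    (fun χ hχ 𝔩 _ ℓ hℓ hℓp hN hne => Thaine.thaine_char hp5 hζ χ hχ 𝔩 ℓ hℓ hℓp hN hne)
    (Units.eta_isUnit hζ) (fun k x h => Units.eta_local hp5 hζ k x h) χ hχ

theorem eigen_class_trivial (hp5 : 5 ≤ p) {ζ : K} (hζ : IsPrimitiveRoot ζ p)
    (𝔞 : Ideal (𝓞 K)) (h0 : 𝔞 ≠ ⊥) (hpow : cls 𝔞 ^ p = 1)
    (heig : ∀ (σ : K ≃ₐ[ℚ] K) (b : ℕ), σ ζ = ζ ^ b → cls (σ • 𝔞) = cls 𝔞 ^ (b ^ 2)) :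
    cls 𝔞 = 1 :=
  eigen_class_trivial_of hζ (fun act h x hx hxe => abstract_eigen p act h x hx hxe)
    (fun χ hχ => eigenChar_trivial hp5 hζ χ hχ) 𝔞 h0 hpow heig

theorem nf_core_five (hp5 : 5 ≤ p) {ζ : K} (hζ : IsPrimitiveRoot ζ p) (α : 𝓞 K) (hα : α ≠ 0)
    (hloc : α - 1 ∈ (span {hζ.toInteger - 1} : Ideal (𝓞 K)) ^ 3)
    (hid : ∃ 𝔞 : Ideal (𝓞 K), span {α} = 𝔞 ^ p)
    (heig : ∀ (σ : K ≃ₐ[ℚ] K) (a : ℕ), σ ζ = ζ ^ a →
      ∃ γ : K, σ (α : K) = (α : K) ^ (a ^ 2) * γ ^ p) :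
    ∃ γ : K, (α : K) = γ ^ p :=
  nf_core_five_of hζ (fun 𝔞 h0 hpow he => eigen_class_trivial hp5 hζ 𝔞 h0 hpow he)
    (fun u hu x hx => Units.unit_pth_power hp5 hζ u hu x hx) α hα hloc hid heig

end Cyclo

/-- The arithmetic core. -/
theorem core {p : ℕ} [Fact p.Prime] (h3 : 3 ≤ p) : CoreStatement p := by
  intro K _ _ _ ζ hζ x hx hI hloc heig
  obtain ⟨α, y, hy, hαx, h0, hl, hid, he⟩ := bridge hζ x hx hI (hloc 3) heig
  have key : ∃ γ : K, (α : K) = γ ^ p := by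
    rcases Nat.lt_or_ge p 5 with h | h
    · have hp3 : p = 3 := by
        have hp : p.Prime := Fact.out
        interval_cases p
        · rfl
        · exact absurd hp (by decide)
      exact nf_core_three hp3 hζ α h0 hid he
    · exact nf_core_five h hζ α h0 hl hid he
  obtain ⟨γ, hγ⟩ := key
  refine ⟨γ / y, ?_⟩
  rw [div_pow, ← hγ, hαx, mul_div_assoc, div_self (pow_ne_zero _ hy), mul_one]

end Fermat.Agent.S14
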