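import Mathlib

/-!
# S14 : shared definitions (Route T)

`K` is the `p`-th cyclotomic field, `ζ : 𝓞 K` a primitive `p`-th root of unity.
-/

set_option autoImplicit false

namespace Fermat.Agent.S14

open NumberField
open scoped nonZeroDivisors Pointwise

/-- The exponent `n_a`: the representative in `[0,p)` of `a⁻² mod p`. -/
def expo (p a : ℕ) : ℕ := (((a : ZMod p)⁻¹) ^ 2).val

/-- The cyclotomic number `1 + ζ + ... + ζ^(a-1) = (1-ζ^a)/(1-ζ)`. -/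
def cyc {R : Type*} [CommRing R] (ζ : R) (a : ℕ) : R := ∑ j ∈ Finset.range a, ζ ^ j

/-- `η₂ = ∏_{a=1}^{p-1} ((1-ζ^a)/(1-ζ))^(n_a)`, the `ω²`-projection of the cyclotomic units. -/
def eta {R : Type*} [CommRing R] (p : ℕ) (ζ : R) : R :=
  ∏ a ∈ Finset.Ico 1 p, cyc ζ a ^ expo p a

/-- The ideal class of a nonzero ideal, with junk value `1` at `⊥`. -/
noncomputable def cls {K : Type*} [Field K] [NumberField K] (I : Ideal (𝓞 K)) : ClassGroup (𝓞 K) :=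
  open Classical in
  if h : I ≠ ⊥ then ClassGroup.mk0 ⟨I, mem_nonZeroDivisors_iff_ne_zero.mpr h⟩ else 1

/-- The real Dirichlet series `∑_I N(I)^(-s)` restricted to a set of nonzero ideals given by
a predicate on the class. -/
noncomputable def classZeta (K : Type*) [Field K] [NumberField K] (C : ClassGroup (𝓞 K)) (s : ℝ) : ℝ :=
  ∑' I : {I : (Ideal (𝓞 K))⁰ // ClassGroup.mk0 I = C}, ((Ideal.absNorm (I.1 : Ideal (𝓞 K)) : ℝ)) ^ (-s)

/-- The real Dedekind zeta sum. -/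
noncomputable def zetaR (K : Type*) [Field K] [NumberField K] (s : ℝ) : ℝ :=
  ∑' I : (Ideal (𝓞 K))⁰, ((Ideal.absNorm (I : Ideal (𝓞 K)) : ℝ)) ^ (-s)

/-- The `L`-series of a class group character at a real point. -/
noncomputable def classL (K : Type*) [Field K] [NumberField K] (X : ClassGroup (𝓞 K) →* ℂˣ) (s : ℝ) : ℂ :=
  ∑' I : (Ideal (𝓞 K))⁰, (X (ClassGroup.mk0 I) : ℂ) * (((Ideal.absNorm (I : Ideal (𝓞 K)) : ℝ)) ^ (-s) : ℝ)

/-- `χ` is an `ω²`-eigencharacter of the class group of `K = ℚ(ζ_p)`. -/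
def IsEigenChar {K : Type*} [Field K] [NumberField K] (p : ℕ) (ζ : K)
    (χ : ClassGroup (𝓞 K) →* Multiplicative (ZMod p)) : Prop :=
  ∀ (σ : K ≃ₐ[ℚ] K) (b : ℕ), σ ζ = ζ ^ b → ∀ I : Ideal (𝓞 K), I ≠ ⊥ →
    χ (cls (σ • I)) = χ (cls I) ^ (b ^ 2)

/-- `u` lies in the `ω²`-eigenspace of `E / E^p`. -/
def IsEigenUnit {K : Type*} [Field K] [NumberField K] (p : ℕ) (ζ : K) (u : (𝓞 K)ˣ) : Prop :=
  ∀ (σ : K ≃ₐ[ℚ] K) (b : ℕ), σ ζ = ζ ^ b →
    ∃ v : (𝓞 K)ˣ, σ • (u : 𝓞 K) = (u : 𝓞 K) ^ (b ^ 2) * (v : 𝓞 K) ^ p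

end Fermat.Agent.S14
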