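-- BLUEPRINT v2 (statements with sorry). NEVER import this file from landed proof files. See tasks table, stmt S14.
-- DECISIONS: (1) the ONLY eta is `Fermat.Agent.S14.eta` of Defs.lean (used by TH, U, CHI).
-- (1b) Cyclo section: K : Type (universe 0, because Mathlib cyclic Hilbert 90 is); Type* versions are of course also fine.
-- (2) the only analytic input is `Analytic.analytic_core` (helper14). (3) Galois side = `CoreStatement` (helper134).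
import Fermat.Agent.S14.Defs
import Fermat.Agent.S14.Core
import Fermat.Agent.S14.Analytic.WIP.Skeleton

set_option autoImplicit false

namespace Fermat.Agent.S14

open NumberField Ideal IsDedekindDomain
open scoped nonZeroDivisors Pointwise

/-! ## SPLIT : file S14/SplitPrimes.lean -/
theorem split_primes {K N : Type*} [Field K] [NumberField K] [Field N] [NumberField N] [Algebra K N]
    (p : ℕ) [Fact p.Prime] (hdeg : Module.finrank K N = p) (ζ : 𝓞 K) (hζ : IsPrimitiveRoot ζ p)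
    (η : 𝓞 K) (hirr : ¬ ∃ c : K, (η : K) = c ^ p)
    (b : 𝓞 N) (hb : b ^ p = algebraMap (𝓞 K) (𝓞 N) η)
    (𝔩 : Ideal (𝓞 K)) [𝔩.IsPrime] (h𝔩 : 𝔩 ≠ ⊥) (hp𝔩 : (p : 𝓞 K) ∉ 𝔩) (hη : η ∉ 𝔩)
    (x : 𝓞 K) (hx : x ^ p - η ∈ 𝔩) :
    ∃ S : Finset (Ideal (𝓞 N)), p ≤ S.card ∧ ∀ Q ∈ S, Q.IsPrime ∧
      Q.comap (algebraMap (𝓞 K) (𝓞 N)) = 𝔩 ∧ absNorm Q = absNorm 𝔩 := sorry

/-! ## AB : file S14/AbstractEigen.lean -/
theorem abstract_eigen {A : Type*} [CommGroup A] [Finite A] (p : ℕ) [Fact p.Prime]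
    (act : (ZMod p)ˣ →* MulAut A)
    (h : ∀ χ : A →* Multiplicative (ZMod p),
      (∀ (b : (ZMod p)ˣ) (x : A), χ (act b x) = χ x ^ ((b : ZMod p) ^ 2).val) → χ = 1)
    (x : A) (hx : x ^ p = 1) (hxe : ∀ b : (ZMod p)ˣ, act b x = x ^ ((b : ZMod p) ^ 2).val) :
    x = 1 := sorry

/-! ## Cyclotomic part -/
section Cyclo
variable {p : ℕ} [Fact p.Prime] {K : Type} [Field K] [NumberField K]
  [IsCyclotomicExtension {p} ℚ K]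

-- TH1 (helper254 block, files S14/Thaine/*)
theorem thaine_relation {ζ : K} (hζ : IsPrimitiveRoot ζ p) (ℓ : ℕ) (hℓ : ℓ.Prime)
    (hℓp : ℓ % p = 1) :
    ∃ (β : 𝓞 K) (s : ℕ) (R : Ideal (𝓞 K) → ℕ) (𝔠 : Ideal (𝓞 K)), β ≠ 0 ∧
      (∀ 𝔩 ∈ IsDedekindDomain.primesOverFinset (span {(ℓ : ℤ)}) (𝓞 K),
        (1 - hζ.toInteger) - (s : 𝓞 K) ^ R 𝔩 ∈ 𝔩) ∧
      span {β} = (∏ 𝔩 ∈ IsDedekindDomain.primesOverFinset (span {(ℓ : ℤ)}) (𝓞 K), 𝔩 ^ R 𝔩) * 𝔠 ^ p := sorry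

-- TH2 (helper254 block)
theorem thaine_char (hp5 : 5 ≤ p) {ζ : K} (hζ : IsPrimitiveRoot ζ p)
    (χ : ClassGroup (𝓞 K) →* Multiplicative (ZMod p)) (hχ : IsEigenChar p ζ χ)
    (𝔩 : Ideal (𝓞 K)) [𝔩.IsPrime] (ℓ : ℕ) (hℓ : ℓ.Prime) (hℓp : ℓ ≠ p) (hN : absNorm 𝔩 = ℓ)
    (hne : χ (cls 𝔩) ≠ 1) :
    ∃ x : 𝓞 K, x ^ p - eta p hζ.toInteger ∈ 𝔩 := sorry

-- ETA, U1, UN (helper194 block, files S14/Units/*)
theorem eta_isUnit {ζ : K} (hζ : IsPrimitiveRoot ζ p) : IsUnit (eta p hζ.toInteger) := sorry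

theorem eta_eigen (hp5 : 5 ≤ p) {ζ : K} (hζ : IsPrimitiveRoot ζ p) :
    IsEigenUnit p ζ (eta_isUnit hζ).unit := sorry

theorem eta_local (hp5 : 5 ≤ p) {ζ : K} (hζ : IsPrimitiveRoot ζ p) (k : ℕ) (x : 𝓞 K)
    (h : eta p hζ.toInteger ^ k - x ^ p ∈ (span {hζ.toInteger - 1} : Ideal (𝓞 K)) ^ 3) :
    p ∣ k := sorry

theorem unit_eigenspace_dim (hp5 : 5 ≤ p) {ζ : K} (hζ : IsPrimitiveRoot ζ p) (u₁ u₂ : (𝓞 K)ˣ)
    (h₁ : IsEigenUnit p ζ u₁) (h₂ : IsEigenUnit p ζ u₂) (hu₁ : ¬ ∃ v : (𝓞 K)ˣ, u₁ = v ^ p) :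
    ∃ (k : ℕ) (v : (𝓞 K)ˣ), u₂ = u₁ ^ k * v ^ p := sorry

theorem unit_pth_power (hp5 : 5 ≤ p) {ζ : K} (hζ : IsPrimitiveRoot ζ p) (u : (𝓞 K)ˣ)
    (hu : IsEigenUnit p ζ u) (x : 𝓞 K)
    (hx : (u : 𝓞 K) - x ^ p ∈ (span {hζ.toInteger - 1} : Ideal (𝓞 K)) ^ 3) :
    ∃ v : (𝓞 K)ˣ, u = v ^ p := sorry

-- CHI : file S14/EigenChar.lean
theorem eigenChar_trivial (hp5 : 5 ≤ p) {ζ : K} (hζ : IsPrimitiveRoot ζ p)
    (χ : ClassGroup (𝓞 K) →* Multiplicative (ZMod p)) (hχ : IsEigenChar p ζ χ) : χ = 1 := sorry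

-- CL : file S14/EigenClass.lean
theorem eigen_class_trivial (hp5 : 5 ≤ p) {ζ : K} (hζ : IsPrimitiveRoot ζ p)
    (𝔞 : Ideal (𝓞 K)) (h0 : 𝔞 ≠ ⊥) (hpow : cls 𝔞 ^ p = 1)
    (heig : ∀ (σ : K ≃ₐ[ℚ] K) (b : ℕ), σ ζ = ζ ^ b → cls (σ • 𝔞) = cls 𝔞 ^ (b ^ 2)) :
    cls 𝔞 = 1 := sorry

-- NF5 : file S14/NFFive.lean
theorem nf_core_five (hp5 : 5 ≤ p) {ζ : K} (hζ : IsPrimitiveRoot ζ p) (α : 𝓞 K) (hα : α ≠ 0)
    (hloc : α - 1 ∈ (span {hζ.toInteger - 1} : Ideal (𝓞 K)) ^ 3)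
    (hid : ∃ 𝔞 : Ideal (𝓞 K), span {α} = 𝔞 ^ p)
    (heig : ∀ (σ : K ≃ₐ[ℚ] K) (a : ℕ), σ ζ = ζ ^ a →
      ∃ γ : K, σ (α : K) = (α : K) ^ (a ^ 2) * γ ^ p) :
    ∃ γ : K, (α : K) = γ ^ p := sorry

-- NF3 : file S14/NFThree.lean
theorem nf_core_three (hp3 : p = 3) {ζ : K} (hζ : IsPrimitiveRoot ζ p) (α : 𝓞 K) (hα : α ≠ 0)
    (hid : ∃ 𝔞 : Ideal (𝓞 K), span {α} = 𝔞 ^ p)
    (heig : ∀ (σ : K ≃ₐ[ℚ] K) (a : ℕ), σ ζ = ζ ^ a →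
      ∃ γ : K, σ (α : K) = (α : K) ^ (a ^ 2) * γ ^ p) :
    ∃ γ : K, (α : K) = γ ^ p := sorry

-- BR : file S14/Bridge.lean  (normalisation x ~> α = x*y^p ∈ 𝓞 K)
theorem bridge {ζ : K} (hζ : IsPrimitiveRoot ζ p) (x : K) (hx : x ≠ 0)
    (hI : ∃ I : FractionalIdeal (𝓞 K)⁰ K, FractionalIdeal.spanSingleton (𝓞 K)⁰ x = I ^ p)
    (hloc : ∃ y : K, y ≠ 0 ∧ ∃ c : 𝓞 K, x * y ^ p = 1 + (1 - ζ) ^ 3 * (c : K))
    (heig : ∀ (g : K ≃ₐ[ℚ] K) (a : ℕ), g ζ = ζ ^ a → ∃ y : K, g x = x ^ (a ^ 2) * y ^ p) :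
    ∃ (α : 𝓞 K) (y : K), y ≠ 0 ∧ (α : K) = x * y ^ p ∧ α ≠ 0 ∧
      α - 1 ∈ (span {hζ.toInteger - 1} : Ideal (𝓞 K)) ^ 3 ∧
      (∃ 𝔞 : Ideal (𝓞 K), span {α} = 𝔞 ^ p) ∧
      (∀ (σ : K ≃ₐ[ℚ] K) (a : ℕ), σ ζ = ζ ^ a →
        ∃ γ : K, σ (α : K) = (α : K) ^ (a ^ 2) * γ ^ p) := sorry

end Cyclo

/-- CORE : file S14/CoreProof.lean (proved here from the nodes above). -/
theorem core {p : ℕ} [Fact p.Prime] (h3 : 3 ≤ p) : CoreStatement p := by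
  intro K _ _ _ ζ hζ x hx hI hloc heig
  obtain ⟨α, y, hy, hαx, h0, hl, hid, he⟩ := bridge hζ x hx hI (hloc 3) heig
  have key : ∃ γ : K, (α : K) = γ ^ p := by
    rcases Nat.lt_or_ge p 5 with h | h
    · have hp3 : p = 3 := by
        have hp : p.Prime := Fact.out
        interval_cases p
        · rfl
        · exact absurd hp (by decide)
      exact nf_core_three hp3 hζ α h0 hid he
    · exact nf_core_five h hζ α h0 hl hid he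
  obtain ⟨γ, hγ⟩ := key
  refine ⟨γ / y, ?_⟩
  rw [div_pow, ← hγ, hαx, mul_div_assoc, div_self (pow_ne_zero _ hy), mul_one]

/-! ## Galois side (helper134, files S14/G/*) -/
theorem extVanishingCts_of_core {p : ℕ} [Fact p.Prime] (h3 : 3 ≤ p) (h : CoreStatement p) :
    ExtCitation.ExtVanishingCts p := sorry

theorem main {p : ℕ} [Fact p.Prime] (h3 : 3 ≤ p) : ExtCitation.ExtVanishingCts p :=
  extVanishingCts_of_core h3 (core h3)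

end Fermat.Agent.S14
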