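import Fermat.Agent.S14.ThaineRel.Main

/-!
# S14 : TH1, the Thaine relation (statement as in the S14 blueprint)

For `ℓ ≡ 1 mod p`, Hilbert 90 applied to the norm-one unit `1 - ζ_p ζ_ℓ` of `K(ζ_ℓ)/K`
gives `β ∈ 𝓞 K` with `(β) = ∏_{𝔩 ∣ ℓ} 𝔩 ^ R 𝔩 * 𝔠 ^ p` and `1 - ζ_p ≡ s ^ R 𝔩 mod 𝔩`.
-/

set_option autoImplicit false

namespace Fermat.Agent.S14.ThaineRel

open NumberField Ideal

variable {p : ℕ} [Fact p.Prime] {K : Type*} [Field K] [NumberField K]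
  [IsCyclotomicExtension {p} ℚ K]

theorem thaine_relation {ζ : K} (hζ : IsPrimitiveRoot ζ p) (ℓ : ℕ) (hℓ : ℓ.Prime)
    (hℓp : ℓ % p = 1) :
    ∃ (β : 𝓞 K) (s : ℕ) (R : Ideal (𝓞 K) → ℕ) (𝔠 : Ideal (𝓞 K)), β ≠ 0 ∧
      (∀ 𝔩 ∈ IsDedekindDomain.primesOverFinset (span {(ℓ : ℤ)}) (𝓞 K),
        (1 - hζ.toInteger) - (s : 𝓞 K) ^ R 𝔩 ∈ 𝔩) ∧
      span {β} = (∏ 𝔩 ∈ IsDedekindDomain.primesOverFinset (span {(ℓ : ℤ)}) (𝓞 K), 𝔩 ^ R 𝔩) * 𝔠 ^ p := by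
  have : Fact ℓ.Prime := ⟨hℓ⟩
  exact thaine_relation_aux (CyclotomicField ℓ K) hℓp hζ

end Fermat.Agent.S14.ThaineRel
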